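import Fermat.Agent.DS.Cheb.Cyclo
import Fermat.Agent.DS.Defs
import Fermat.Agent.Mazur.Kummer
import Mathlib.NumberTheory.PrimesCongruentOne

/-!
# Chebotarev's theorem

The lower bound for each conjugacy class, by crossing with a cyclotomic field.
-/

set_option autoImplicit false

noncomputable section

open NumberField Module
open Filter Topology
open scoped Classical

namespace FermatAgent.DS.Cheb

open FermatAgent.GaloisBasic (Qbar InertiaTrivial exists_finite_inertiaTrivial exists_liesOverPrime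
  exists_isFrobeniusAt restrictNormalHom_eq_one_iff)

/-- Factorisation of a homomorphism through a finite Galois level. -/
theorem exists_factor (E : IntermediateField ℚ Qbar) [Normal ℚ E] {H : Type*} [Group H]
    (f : DS.GQ →* H) (hker : ∀ σ ∈ E.fixingSubgroup, f σ = 1) :
    ∃ r : (E ≃ₐ[ℚ] E) →* H, ∀ σ, r (AlgEquiv.restrictNormalHom E σ) = f σ := by
  have hsurj : Function.Surjective (AlgEquiv.restrictNormalHom E : DS.GQ →* (E ≃ₐ[ℚ] E)) :=
    AlgEquiv.restrictNormalHom_surjective (K₁ := E) Qbar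
  refine ⟨(AlgEquiv.restrictNormalHom E).liftOfSurjective hsurj ⟨f, fun σ hσ => ?_⟩, fun σ => ?_⟩
  · exact hker σ ((restrictNormalHom_eq_one_iff E σ).mp hσ)
  · exact MonoidHom.liftOfRightInverse_comp_apply _ _ (Function.rightInverse_surjInv hsurj) _ σ

/-- The preimage of a set under a surjective homomorphism. -/
theorem card_preimage_mul {Γ H : Type*} [Group Γ] [Group H] (r : Γ →* H)
    (hr : Function.Surjective r) (P : H → Prop) :
    Nat.card {y : Γ // P (r y)} * Nat.card H = Nat.card {h : H // P h} * Nat.card Γ := by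
  set s := Function.surjInv hr
  have hs : ∀ h, r (s h) = h := Function.surjInv_eq hr
  let e : Γ ≃ H × r.ker :=
    { toFun := fun y => (r y, ⟨(s (r y))⁻¹ * y, by simp [MonoidHom.mem_ker, hs]⟩)
      invFun := fun z => s z.1 * z.2
      left_inv := fun y => by simp
      right_inv := fun z => by
        have h2 : r (z.2 : Γ) = 1 := z.2.2
        refine Prod.ext (by simp [hs, h2]) (Subtype.ext ?_)
        simp [hs, h2] }
  let e' : {y : Γ // P (r y)} ≃ {h : H // P h} × r.ker :=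
    (e.subtypeEquiv (q := fun z : H × r.ker => P z.1) fun y => Iff.rfl).trans
      (Equiv.prodSubtypeFstEquivSubtypeProd (p := P))
  rw [Nat.card_congr e', Nat.card_prod, Nat.card_congr e, Nat.card_prod]
  ring

/-- A unit of bad order has a small power equal to one. -/
theorem exists_pow_eq_one_of_not_dvd {G : Type*} [Group G] (u : G) {n k M : ℕ} (hn : 0 < n)
    (hk : 1 ≤ k) (hM0 : 0 < M) (hM : n ^ k ∣ M) (hu : u ^ M = 1) (hbad : ¬ n ∣ orderOf u) :
    ∃ l ∈ Finset.range (n + 1), 2 ≤ l ∧ l ^ (k - 1) ∣ M ∧ u ^ (M / l ^ (k - 1)) = 1 := by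
  rw [Nat.dvd_iff_prime_pow_dvd_dvd] at hbad
  push Not at hbad
  obtain ⟨l, j, hl, hjn, hjo⟩ := hbad
  have ho : orderOf u ∣ M := orderOf_dvd_of_pow_eq_one hu
  have hj : 1 ≤ j := by
    rcases Nat.eq_zero_or_pos j with rfl | h
    · exact absurd (by simp) hjo
    · exact h
  have hln : l ∣ n := (dvd_pow_self l (by omega)).trans hjn
  refine ⟨l, Finset.mem_range.mpr (Nat.lt_succ_of_le (Nat.le_of_dvd hn hln)), hl.two_le,
    (pow_dvd_pow l (Nat.sub_le k 1)).trans ((pow_dvd_pow_of_dvd hln k).trans hM), ?_⟩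
  have hne : orderOf u ≠ 0 := (Nat.pos_of_dvd_of_pos ho hM0).ne'
  obtain ⟨i, o', ho', hoi⟩ := Nat.exists_eq_pow_mul_and_not_dvd hne l hl.ne_one
  have hi : i < j := by
    by_contra h
    exact hjo (hoi ▸ dvd_mul_of_dvd_left (pow_dvd_pow l (not_lt.mp h)) o')
  have hdvd : l ^ (i + (k - 1)) * o' ∣ M := by
    refine Nat.Coprime.mul_dvd_of_dvd_of_dvd ?_ ?_ ((dvd_mul_left o' _).trans (hoi ▸ ho))
    · exact Nat.Coprime.pow_left _ ((hl.coprime_iff_not_dvd).mpr ho')
    · refine (pow_dvd_pow l ?_).trans (((pow_mul l j k).symm ▸ pow_dvd_pow_of_dvd hjn k).trans hM)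
      calc i + (k - 1) ≤ (j - 1) + (k - 1) := by omega
        _ ≤ j * k := by
            obtain ⟨j', rfl⟩ := Nat.exists_eq_add_of_le hj
            obtain ⟨k', rfl⟩ := Nat.exists_eq_add_of_le hk
            simp only [Nat.add_sub_cancel_left]
            nlinarith
  obtain ⟨c, hc⟩ := hdvd
  have hpos : 0 < l ^ (k - 1) := pow_pos hl.pos _
  rw [show M / l ^ (k - 1) = orderOf u * c by
    rw [hc, hoi, pow_add,
      show l ^ i * l ^ (k - 1) * o' * c = l ^ (k - 1) * (l ^ i * o' * c) by ring,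
      Nat.mul_div_cancel_left _ hpos], pow_mul, pow_orderOf_eq_one, one_pow]

/-- Few units have bad order. -/
theorem card_bad_mul_le {m : ℕ} [Fact m.Prime] {n k : ℕ} (hn : 0 < n) (hk : 1 ≤ k)
    (hm : n ^ k ∣ m - 1) :
    Nat.card {u : (ZMod m)ˣ // ¬ n ∣ orderOf u} * 2 ^ (k - 1) ≤ (n + 1) * (m - 1) := by
  have hm1 : 0 < m - 1 := by have := (Fact.out : m.Prime).two_le; omega
  set T := (Finset.range (n + 1)).filter fun l => 2 ≤ l ∧ l ^ (k - 1) ∣ m - 1
  set U : ℕ → Finset (ZMod m)ˣ := fun l =>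
    Finset.univ.filter fun u => u ^ ((m - 1) / l ^ (k - 1)) = 1
  have hsub : (Finset.univ.filter fun u : (ZMod m)ˣ => ¬ n ∣ orderOf u) ⊆ T.biUnion U := by
    intro u hu
    obtain ⟨l, hl, hl2, hldvd, he⟩ := exists_pow_eq_one_of_not_dvd u hn hk hm1 hm
      (ZMod.units_pow_card_sub_one_eq_one m u) (Finset.mem_filter.mp hu).2
    exact Finset.mem_biUnion.mpr ⟨l, Finset.mem_filter.mpr ⟨hl, hl2, hldvd⟩,
      Finset.mem_filter.mpr ⟨Finset.mem_univ _, he⟩⟩
  rw [Nat.card_eq_fintype_card, Fintype.card_subtype]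
  refine (Nat.mul_le_mul_right _ ((Finset.card_le_card hsub).trans Finset.card_biUnion_le)).trans ?_
  rw [Finset.sum_mul]
  refine (Finset.sum_le_card_nsmul T _ (m - 1) fun l hl => ?_).trans ?_
  · obtain ⟨-, hl2, hdvd⟩ := Finset.mem_filter.mp hl
    have hpos : 0 < l ^ (k - 1) := pow_pos (by omega) _
    have hq : 0 < (m - 1) / l ^ (k - 1) := Nat.div_pos (Nat.le_of_dvd hm1 hdvd) hpos
    calc (U l).card * 2 ^ (k - 1) ≤ ((m - 1) / l ^ (k - 1)) * l ^ (k - 1) :=
          Nat.mul_le_mul (IsCyclic.card_pow_eq_one_le hq) (Nat.pow_le_pow_left hl2 _)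
      _ = m - 1 := Nat.div_mul_cancel hdvd
  · rw [smul_eq_mul]
    exact Nat.mul_le_mul_right _ ((Finset.card_filter_le _ _).trans (Finset.card_range _).le)

/-- The real part of a complex prime sum of a real function. -/
theorem primeSumC_ofReal (g : ℕ → ℝ) (s : ℝ) :
    primeSumC (fun p => (g p : ℂ)) s = (DS.primeSum g s : ℂ) := by
  rw [primeSumC, DS.primeSum, Complex.ofReal_tsum]
  exact tsum_congr fun p => by push_cast; rfl

theorem summable_primeSum {g : ℕ → ℝ} {R : ℝ} (hg : ∀ p, p.Prime → |g p| ≤ R) {s : ℝ}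
    (hs : 1 < s) : Summable fun p : Nat.Primes => g p * ((p : ℕ) : ℝ) ^ (-s) :=
  Summable.of_norm_bounded ((Nat.Primes.summable_rpow.mpr (by linarith : -s < -1)).mul_left R)
    fun p => by
      rw [Real.norm_eq_abs, abs_mul, abs_of_nonneg (Real.rpow_nonneg (Nat.cast_nonneg _) _)]
      exact mul_le_mul_of_nonneg_right (hg _ p.2) (Real.rpow_nonneg (Nat.cast_nonneg _) _)

/-- A cyclotomic field is normal. -/
private theorem normal_adjoin_primitiveRoot {m : ℕ} [NeZero m] {ζ : Qbar}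
    (hζ : IsPrimitiveRoot ζ m) : Normal ℚ (IntermediateField.adjoin ℚ ({ζ} : Set Qbar)) := by
  refine IntermediateField.normal_iff_forall_map_le.mpr fun τ => ?_
  rw [IntermediateField.adjoin_map, Set.image_singleton, IntermediateField.adjoin_simple_le_iff]
  obtain ⟨i, -, hi⟩ := hζ.eq_pow_of_pow_eq_one
    (show τ ζ ^ m = 1 by rw [← map_pow, hζ.pow_eq_one, map_one])
  rw [← hi]
  exact pow_mem (IntermediateField.mem_adjoin_simple_self ℚ ζ) i

/-- An element fixing `ζ` has trivial cyclotomic character, and conversely. -/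
private theorem autToPow_eq_one_iff {m : ℕ} [Fact m.Prime] {ζ : Qbar} (hζ : IsPrimitiveRoot ζ m)
    (σ : DS.GQ) : hζ.autToPow ℚ σ = 1 ↔ σ ζ = ζ := by
  have hm : 1 < m := (Fact.out : m.Prime).one_lt
  have h := hζ.autToPow_spec ℚ σ
  refine ⟨fun h1 => by rw [← h, h1, Units.val_one, ZMod.val_one, pow_one], fun h1 => ?_⟩
  refine Units.ext (ZMod.val_injective m ?_)
  rw [Units.val_one, ZMod.val_one]
  exact hζ.pow_inj (ZMod.val_lt _) hm (by rw [h, h1, pow_one])

/-- An element trivial on `L` and fixing `ζ` is trivial on their compositum. -/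
private theorem restrict_sup_eq_one (L : IntermediateField ℚ Qbar) [Normal ℚ L] (ζ : Qbar)
    [Normal ℚ ↥(L ⊔ IntermediateField.adjoin ℚ ({ζ} : Set Qbar))] (σ : DS.GQ)
    (hL : AlgEquiv.restrictNormalHom L σ = 1) (hσ : σ ζ = ζ) :
    AlgEquiv.restrictNormalHom ↥(L ⊔ IntermediateField.adjoin ℚ ({ζ} : Set Qbar)) σ = 1 := by
  rw [restrictNormalHom_eq_one_iff, IntermediateField.fixingSubgroup_sup]
  refine ⟨(restrictNormalHom_eq_one_iff L σ).mp hL, ?_⟩
  have hle : IntermediateField.adjoin ℚ ({ζ} : Set Qbar) ≤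
      IntermediateField.fixedField (Subgroup.zpowers σ) := by
    rw [IntermediateField.adjoin_simple_le_iff, IntermediateField.mem_fixedField_iff]
    exact fun τ hτ => Subgroup.zpowers_le.mpr
      (show σ ∈ MulAction.stabilizer DS.GQ ζ from hσ) hτ
  exact (IntermediateField.le_iff_le _ _).mp hle (Subgroup.mem_zpowers σ)

/-- A field with a primitive root of prime order `m` has degree at least `m - 1`. -/
private theorem sub_one_le_card_gal {m : ℕ} (hmp : m.Prime) {ζ : Qbar} (hζ : IsPrimitiveRoot ζ m)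
    (E : IntermediateField ℚ Qbar) [FiniteDimensional ℚ E] [IsGalois ℚ E]
    (hE : IntermediateField.adjoin ℚ ({ζ} : Set Qbar) ≤ E) :
    m - 1 ≤ Nat.card (E ≃ₐ[ℚ] E) := by
  rw [IsGalois.card_aut_eq_finrank, ← Nat.totient_prime hmp]
  refine le_trans (le_of_eq ?_) (LinearMap.finrank_le_finrank_of_injective
    (f := (IntermediateField.inclusion hE).toLinearMap)
    (IntermediateField.inclusion hE).injective)
  rw [IntermediateField.adjoin.finrank (Algebra.IsIntegral.isIntegral ζ),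
    ← Polynomial.cyclotomic_eq_minpoly_rat hζ hmp.pos, Polynomial.natDegree_cyclotomic]

/-- The cyclotomic character of a Frobenius element at `p ≠ m` is `p`. -/
private theorem autToPow_frobenius {m : ℕ} [NeZero m] (hmp : m.Prime) {ζ : Qbar}
    (hζ : IsPrimitiveRoot ζ m) {p : ℕ} (hp : p.Prime) (hpm : p ≠ m) {A : ValuationSubring Qbar}
    {σ : DS.GQ} (hA : A.LiesOverPrime p) (hσ : A.IsFrobeniusAt σ p) :
    ((hζ.autToPow ℚ σ : (ZMod m)ˣ) : ZMod m) = p := by
  have h1 := hζ.autToPow_spec ℚ σ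
  rw [Mazur.frobenius_rootsOfUnity hp hA
    (fun h => hpm ((Nat.prime_dvd_prime_iff_eq hp hmp).mp h)) hmp.ne_zero hσ
    hζ.pow_eq_one, (hζ.isOfFinOrder (NeZero.ne _)).pow_eq_pow_iff_modEq, ← hζ.eq_orderOf] at h1
  rw [← ZMod.natCast_zmod_val ((hζ.autToPow ℚ σ : (ZMod m)ˣ) : ZMod m)]
  exact (ZMod.natCast_eq_natCast_iff _ _ _).mpr h1

/-- If `(r, ε)` separates elements and the order of `r`'s target divides that of `ε x`, then `ε`
separates the powers of `x`. -/
private theorem eq_one_of_mem_zpowers {Γ A B : Type*} [Group Γ] [Finite Γ] [Group A] [Group B]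
    (r : Γ →* A) (ε : Γ →* B) (hpair : ∀ y, r y = 1 → ε y = 1 → y = 1) {x : Γ}
    (hx : Nat.card A ∣ orderOf (ε x)) {t : Γ} (ht : t ∈ Subgroup.zpowers x) (h1 : ε t = 1) :
    t = 1 := by
  obtain ⟨j, rfl⟩ := (isOfFinOrder_of_finite x).mem_powers_iff_mem_zpowers.mpr ht
  refine hpair _ ?_ h1
  have h2 : orderOf (ε x) ∣ j := by
    rw [orderOf_dvd_iff_pow_eq_one, ← map_pow]; exact h1
  rw [show r (x ^ j) = r x ^ j from map_pow _ _ _, ← orderOf_dvd_iff_pow_eq_one]
  exact (_root_.orderOf_dvd_natCard (r x)).trans (hx.trans h2)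

/-- Conjugators into a set `good` are at most all of the group, and there are none unless the
indicator `f` equals one. -/
private theorem sum_card_conj_le {Γ : Type*} [Group Γ] [Finite Γ] (good : Finset Γ) (y : Γ)
    {f : ℝ} (hf : 0 ≤ f) (h : ∀ t, t * y * t⁻¹ ∈ good → f = 1) :
    ∑ x ∈ good, (Nat.card {t : Γ // t * y * t⁻¹ = x} : ℝ) ≤ Nat.card Γ * f := by
  by_cases h0 : ∃ t, t * y * t⁻¹ ∈ good
  · obtain ⟨t, ht⟩ := h0
    rw [h t ht, mul_one, ← Nat.cast_sum]
    refine Nat.cast_le.mpr ?_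
    have := Fintype.ofFinite Γ
    simp only [Nat.card_eq_fintype_card, Fintype.card_subtype]
    rw [← Finset.card_biUnion fun a _ b _ hab => Finset.disjoint_filter.mpr
      fun t _ ha hb => hab (ha.symm.trans hb)]
    exact Finset.card_le_univ _
  · refine le_trans (le_of_eq ?_) (mul_nonneg (Nat.cast_nonneg _) hf)
    refine Finset.sum_eq_zero fun x hx => ?_
    have : IsEmpty {t : Γ // t * y * t⁻¹ = x} := ⟨fun t => h0 ⟨t.1, by rwa [t.2]⟩⟩
    rw [Nat.card_of_isEmpty, Nat.cast_zero]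

/-- Few lifts have bad order. -/
private theorem card_bad_lifts_le {Γ A : Type*} [Group Γ] [Group A] [Finite A] {m k : ℕ}
    [Fact m.Prime] (r : Γ →* A) (ε : Γ →* (ZMod m)ˣ) (hpair : ∀ y, r y = 1 → ε y = 1 → y = 1)
    (hk : 1 ≤ k) (hm : Nat.card A ^ k ∣ m - 1) (hcard : m - 1 ≤ Nat.card Γ) :
    Nat.card {y : Γ // ¬ Nat.card A ∣ orderOf (ε y)} * 2 ^ (k - 1) ≤
      Nat.card A * ((Nat.card A + 1) * Nat.card Γ) := by
  refine (Nat.mul_le_mul_right _ ((Nat.card_le_card_of_injective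
    (fun y => (r y.1, (⟨ε y.1, y.2⟩ : {u : (ZMod m)ˣ // ¬ Nat.card A ∣ orderOf u})))
    fun y z h => Subtype.ext ?_).trans_eq (Nat.card_prod _ _))).trans ?_
  · simp only [Prod.mk.injEq, Subtype.mk.injEq] at h
    exact mul_inv_eq_one.mp (hpair _ (by rw [map_mul, map_inv, h.1, mul_inv_cancel])
      (by rw [map_mul, map_inv, h.2, mul_inv_cancel]))
  · rw [mul_assoc]
    exact Nat.mul_le_mul_left _
      ((card_bad_mul_le Nat.card_pos hk hm).trans (Nat.mul_le_mul_left _ hcard))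

/-- Almost all lifts of a conjugacy class are good. -/
private theorem mul_card_le_card_good {Γ A G : Type*} [Group Γ] [Fintype Γ] [Group A] [Finite A]
    [Group G] [Finite G] {m k₀ : ℕ} [Fact m.Prime] (r : Γ →* G) (rA : Γ →* A)
    (ε : Γ →* (ZMod m)ˣ) (hr : Function.Surjective r) (hpair : ∀ y, rA y = 1 → ε y = 1 → y = 1)
    (hm : Nat.card A ^ (k₀ + 1) ∣ m - 1) (hcard : m - 1 ≤ Nat.card Γ) {g : G} {η : ℝ}
    (hk₀ : (1 / 2 : ℝ) ^ k₀ ≤ η / ((Nat.card A : ℝ) * (Nat.card A + 1))) :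
    ((Nat.card {x : G // IsConj g x} : ℝ) / Nat.card G - η) * Nat.card Γ ≤
      ((Finset.univ.filter fun y => IsConj g (r y)).filter
        fun y => Nat.card A ∣ orderOf (ε y)).card := by
  set X := Finset.univ.filter fun y => IsConj g (r y)
  have hX := card_preimage_mul r hr (IsConj g)
  rw [Nat.card_eq_fintype_card (α := {y // IsConj g (r y)}), Fintype.card_subtype] at hX
  have hbad : (X.filter fun y => ¬ Nat.card A ∣ orderOf (ε y)).card * 2 ^ k₀ ≤
      Nat.card A * ((Nat.card A + 1) * Nat.card Γ) := by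
    refine le_trans (Nat.mul_le_mul_right _ ?_)
      (card_bad_lifts_le rA ε hpair (Nat.succ_pos k₀) hm hcard)
    rw [Nat.card_eq_fintype_card (α := {y // ¬ _}), Fintype.card_subtype]
    exact Finset.card_le_card (Finset.filter_subset_filter _ (Finset.subset_univ X))
  have hsplit : (X.filter fun y => Nat.card A ∣ orderOf (ε y)).card +
      (X.filter fun y => ¬ Nat.card A ∣ orderOf (ε y)).card = X.card :=
    Finset.card_filter_add_card_filter_not _
  have hA : (0 : ℝ) < Nat.card A := Nat.cast_pos.mpr Nat.card_pos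
  rw [one_div_pow, div_le_div_iff₀ (by positivity) (by positivity), one_mul] at hk₀
  have hX' : (X.card : ℝ) * Nat.card G = Nat.card {y : G // IsConj g y} * Nat.card Γ := by
    exact_mod_cast hX
  have hbad' : ((X.filter fun y => ¬ Nat.card A ∣ orderOf (ε y)).card : ℝ) * 2 ^ k₀ ≤
      Nat.card A * ((Nat.card A + 1) * Nat.card Γ) := by exact_mod_cast hbad
  rw [sub_mul, div_mul_eq_mul_div, ← hX',
    mul_div_cancel_right₀ _ (Nat.cast_ne_zero.mpr Nat.card_pos.ne'), ← hsplit, Nat.cast_add]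
  nlinarith [mul_le_mul_of_nonneg_right hk₀ (Nat.cast_nonneg (α := ℝ) (Nat.card Γ)),
    pow_pos (two_pos (α := ℝ)) k₀]

/-- Prime sums near `log (1 / (s - 1))`, added up below `Γc * f`, bound the prime sum of `f`. -/
private theorem eventually_le_primeSum {ι : Type*} (good : Finset ι) (N : ι → ℕ → ℝ) (B : ι → ℝ)
    (f : ℕ → ℝ) {Γc c : ℝ} (hΓ : 0 < Γc) (hc : c * Γc ≤ good.card)
    (hN : ∀ x p, 0 ≤ N x p ∧ N x p ≤ Γc) (hf : ∀ p, 0 ≤ f p ∧ f p ≤ 1)
    (hle : ∀ p : ℕ, p.Prime → ∑ x ∈ good, N x p ≤ Γc * f p)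
    (hB : ∀ x ∈ good, ∀ᶠ s in 𝓝[>] (1 : ℝ),
      |DS.primeSum (N x) s - Real.log (1 / (s - 1))| ≤ B x) :
    ∀ᶠ s in 𝓝[>] (1 : ℝ),
      c * Real.log (1 / (s - 1)) - (∑ x ∈ good, B x) / Γc ≤ DS.primeSum f s := by
  filter_upwards [(eventually_all_finset good).mpr hB, Ioo_mem_nhdsGT one_lt_two]
    with s hs hs12
  have hlog : 0 ≤ Real.log (1 / (s - 1)) := Real.log_nonneg (by
    rw [le_div_iff₀ (by linarith [hs12.1])]; linarith [hs12.2])
  have h1 : (good.card : ℝ) * Real.log (1 / (s - 1)) - ∑ x ∈ good, B x ≤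
      ∑ x ∈ good, DS.primeSum (N x) s := by
    rw [← nsmul_eq_mul, ← Finset.sum_const, ← Finset.sum_sub_distrib]
    exact Finset.sum_le_sum fun x hx => by linarith [(abs_le.mp (hs x hx)).1]
  have hsN : ∀ x ∈ good, Summable fun p : Nat.Primes => N x p * ((p : ℕ) : ℝ) ^ (-s) :=
    fun x _ => summable_primeSum (R := Γc)
      (fun p _ => by rw [abs_of_nonneg (hN x p).1]; exact (hN x p).2) hs12.1
  have hsI : Summable fun p : Nat.Primes => Γc * f p * ((p : ℕ) : ℝ) ^ (-s) :=
    summable_primeSum (g := fun p => Γc * f p) (R := Γc)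
      (fun p _ => by
        rw [abs_of_nonneg (mul_nonneg hΓ.le (hf p).1)]
        exact mul_le_of_le_one_right hΓ.le (hf p).2) hs12.1
  have h2 : ∑ x ∈ good, DS.primeSum (N x) s ≤ Γc * DS.primeSum f s := by
    simp only [DS.primeSum]
    rw [← Summable.tsum_finsetSum hsN, ← tsum_mul_left]
    simp only [← mul_assoc]
    refine Summable.tsum_le_tsum (fun p => ?_) (summable_sum hsN) hsI
    rw [← Finset.sum_mul]
    exact mul_le_mul_of_nonneg_right (hle p p.2) (Real.rpow_nonneg (Nat.cast_nonneg _) _)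
  rw [sub_le_iff_le_add, ← mul_le_mul_iff_right₀ hΓ, mul_add,
    mul_div_cancel₀ _ hΓ.ne', ← mul_assoc, mul_comm Γc c]
  nlinarith [mul_le_mul_of_nonneg_right hc hlog]

/-- A lower bound near `1` gives one on all of `(1, 2]`, for nonnegative weights. -/
private theorem exists_le_primeSum_of_eventually {f : ℕ → ℝ} (hf : ∀ p, 0 ≤ f p) {c C : ℝ}
    (hev : ∀ᶠ s in 𝓝[>] (1 : ℝ), c * Real.log (1 / (s - 1)) - C ≤ DS.primeSum f s) :
    ∃ C' : ℝ, ∀ s : ℝ, 1 < s → s ≤ 2 →
      c * Real.log (1 / (s - 1)) - C' ≤ DS.primeSum f s := by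
  obtain ⟨u, hu, hsub⟩ := mem_nhdsGT_iff_exists_Ioo_subset.mp hev
  have hu1 : (1 : ℝ) < u := hu
  refine ⟨max C (|c| * |Real.log (1 / (u - 1))|), fun s hs hs2 => ?_⟩
  rcases lt_or_ge s u with h | h
  · have h1 : c * Real.log (1 / (s - 1)) - C ≤ DS.primeSum f s := hsub ⟨hs, h⟩
    linarith [le_max_left C (|c| * |Real.log (1 / (u - 1))|)]
  · have h0 : 0 ≤ Real.log (1 / (s - 1)) := Real.log_nonneg (by
      rw [le_div_iff₀ (by linarith)]; linarith)
    have h1 : Real.log (1 / (s - 1)) ≤ |Real.log (1 / (u - 1))| :=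
      (Real.log_le_log (by positivity [sub_pos.mpr hs]) (one_div_le_one_div_of_le
        (sub_pos.mpr hu1) (by linarith))).trans (le_abs_self _)
    have h2 : c * Real.log (1 / (s - 1)) ≤ |c| * |Real.log (1 / (u - 1))| :=
      (mul_le_mul_of_nonneg_right (le_abs_self c) h0).trans
        (mul_le_mul_of_nonneg_left h1 (abs_nonneg c))
    have h3 : 0 ≤ DS.primeSum f s := tsum_nonneg fun p =>
      mul_nonneg (hf _) (Real.rpow_nonneg (Nat.cast_nonneg _) _)
    linarith [le_max_right C (|c| * |Real.log (1 / (u - 1))|)]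

/-- A bound for the complex prime sum of a real function, as one for the real sum. -/
private theorem exists_eventually_abs_le {f : ℕ → ℝ}
    (h : Bdd fun s => primeSumC (fun p => (f p : ℂ)) s - (Real.log (1 / (s - 1)) : ℂ)) :
    ∃ B : ℝ, ∀ᶠ s in 𝓝[>] (1 : ℝ), |DS.primeSum f s - Real.log (1 / (s - 1))| ≤ B := by
  obtain ⟨B, hB⟩ := h.exists_bound
  refine ⟨B, hB.mono fun s hs => ?_⟩
  rwa [← Real.norm_eq_abs, ← Complex.norm_real, Complex.ofReal_sub, ← primeSumC_ofReal]

/-- Every prime has a Frobenius element in a finite Galois extension of `ℚ`. -/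
private theorem exists_frobenius_restrict (E : IntermediateField ℚ Qbar) [Normal ℚ E] (p : ℕ) :
    ∃ y : E ≃ₐ[ℚ] E, p.Prime → ∃ (A : ValuationSubring Qbar) (σ : DS.GQ),
      A.LiesOverPrime p ∧ A.IsFrobeniusAt σ p ∧ AlgEquiv.restrictNormalHom E σ = y := by
  by_cases hp : p.Prime
  · obtain ⟨A, hA⟩ := exists_liesOverPrime hp
    obtain ⟨σ, hσ⟩ := exists_isFrobeniusAt hp hA
    exact ⟨_, fun _ => ⟨A, σ, hA, hσ, rfl⟩⟩
  · exact ⟨1, fun h => absurd h hp⟩

end Cheb

open FermatAgent.GaloisBasic (Qbar InertiaTrivial exists_finite_inertiaTrivial exists_liesOverPrime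
  exists_isFrobeniusAt restrictNormalHom_eq_one_iff)
open Cheb

/-- **Chebotarev's theorem**: the primes with Frobenius in a given conjugacy class `C` of `G` have
lower density at least `|C| / |G| - η` for every `η > 0`. Crossing the extension with the `m`th
roots of unity, `m` a prime with `m - 1` divisible by a high power of the degree, reduces it to
abelian extensions; all but a small proportion of the lifts of the class count. -/
theorem chebotarevLower {G : Type} [Group G] [Finite G] (φ : GQ →* G)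
    (hφ : GaloisFactorsThroughFiniteLevel φ) (hsurj : Function.Surjective φ) (S : Finset ℕ) (g : G)
    (η : ℝ) (hη : 0 < η) :
    ∃ C : ℝ, ∀ s : ℝ, 1 < s → s ≤ 2 →
      ((Nat.card {x : G // IsConj g x} : ℝ) / (Nat.card G : ℝ) - η) *
          Real.log (1 / (s - 1)) - C ≤ primeSum (frobInd φ S g) s := by
  obtain ⟨L₀, hL₀, hker⟩ := hφ
  have := hL₀
  let L := IntermediateField.normalClosure ℚ L₀ Qbar
  have : Normal ℚ L := normalClosure.normal ℚ L₀ Qbar
  have : FiniteDimensional ℚ L := normalClosure.is_finiteDimensional ℚ L₀ Qbar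
  set n := Nat.card (L ≃ₐ[ℚ] L)
  have hn : 0 < n := Nat.card_pos
  -- a prime `m` with `n ^ k ∣ m - 1`, and the compositum `E` of `L` and the `m`th roots of unity
  obtain ⟨k₀, hk₀⟩ := exists_pow_lt_of_lt_one
    (show 0 < η / ((n : ℝ) * (n + 1)) by positivity) (show (1 / 2 : ℝ) < 1 by norm_num)
  obtain ⟨m, hmp, -, hmod⟩ :=
    Nat.exists_prime_gt_modEq_one (k := n ^ (k₀ + 1)) 2 (pow_ne_zero _ hn.ne')
  have : Fact m.Prime := ⟨hmp⟩
  have : NeZero m := ⟨hmp.ne_zero⟩
  have hdvd : n ^ (k₀ + 1) ∣ m - 1 := (Nat.modEq_iff_dvd' hmp.one_le).mp hmod.symm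
  have : NeZero (m : Qbar) := ⟨Nat.cast_ne_zero.mpr hmp.ne_zero⟩
  obtain ⟨ζ, hζ⟩ := HasEnoughRootsOfUnity.exists_primitiveRoot Qbar m
  set C := IntermediateField.adjoin ℚ ({ζ} : Set Qbar)
  have : FiniteDimensional ℚ C :=
    IntermediateField.adjoin.finiteDimensional (Algebra.IsIntegral.isIntegral ζ)
  have hC : Normal ℚ C := normal_adjoin_primitiveRoot hζ
  let E := L ⊔ C
  have : Normal ℚ E := @IntermediateField.normal_sup ℚ Qbar _ _ _ L C _ hC
  have : IsGalois ℚ E := IsGalois.mk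
  -- `φ`, restriction to `L` and the cyclotomic character factor through the group of `E`
  obtain ⟨rG, hrG⟩ := exists_factor E φ fun σ hσ => hker σ fun y hy =>
    (IntermediateField.mem_fixingSubgroup_iff _ σ).mp hσ y
      ((le_sup_left : L ≤ E) (L₀.le_normalClosure hy))
  obtain ⟨rL, hrL⟩ := exists_factor E (AlgEquiv.restrictNormalHom L : GQ →* (L ≃ₐ[ℚ] L))
    fun σ hσ => (restrictNormalHom_eq_one_iff L σ).mpr
      (IntermediateField.fixingSubgroup_antitone le_sup_left hσ)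
  obtain ⟨ε, hε⟩ := exists_factor E (hζ.autToPow ℚ : GQ →* (ZMod m)ˣ) fun σ hσ =>
    (autToPow_eq_one_iff hζ σ).mpr ((IntermediateField.mem_fixingSubgroup_iff _ σ).mp hσ ζ
      ((le_sup_right : C ≤ E) (IntermediateField.mem_adjoin_simple_self ℚ ζ)))
  have hpair : ∀ y, rL y = 1 → ε y = 1 → y = 1 := fun y hy1 hy2 => by
    obtain ⟨σ, rfl⟩ := AlgEquiv.restrictNormalHom_surjective (K₁ := E) Qbar y
    exact restrict_sup_eq_one L ζ σ ((hrL σ).symm.trans hy1)
      ((autToPow_eq_one_iff hζ σ).mp ((hε σ).symm.trans hy2))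
  -- exceptional primes and Frobenius elements
  obtain ⟨S₀, hS₀⟩ := exists_finite_inertiaTrivial E
  set S₁ := S₀ ∪ S ∪ {m}
  have hS₁ : ∀ p, p ∉ S₁ → p ∉ S₀ ∧ p ∉ S ∧ p ≠ m := fun p hp => by
    simp only [S₁, Finset.mem_union, Finset.mem_singleton, not_or] at hp
    exact ⟨hp.1.1, hp.1.2, hp.2⟩
  choose fr hfr using exists_frobenius_restrict E
  -- the good lifts `x` of the class of `g`, each seen by the primes with Frobenius conjugate to `x`
  have := Fintype.ofFinite (E ≃ₐ[ℚ] E)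
  set X := Finset.univ.filter fun y : E ≃ₐ[ℚ] E => IsConj g (rG y)
  set good := X.filter fun y => n ∣ orderOf (ε y)
  let N : (E ≃ₐ[ℚ] E) → ℕ → ℝ := fun x p => if p ∈ S₁ then 0 else
    (Nat.card {t : E ≃ₐ[ℚ] E // t * fr p * t⁻¹ = x} : ℝ)
  have hN : ∀ x ∈ good, ∃ B : ℝ, ∀ᶠ s in 𝓝[>] (1 : ℝ),
      |primeSum (N x) s - Real.log (1 / (s - 1))| ≤ B := fun x hx => by
    refine exists_eventually_abs_le ?_
    simpa only [N, apply_ite Complex.ofReal, Complex.ofReal_zero, Complex.ofReal_natCast] using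
      exists_primeSum_conj E ε S₁ (fun p hp hpS => hS₀ p hp (hS₁ p hpS).1)
        (fun p hp hpS A σ hA hσ => by
          rw [hε]; exact autToPow_frobenius hmp hζ hp (hS₁ p hpS).2.2 hA hσ)
        fr (fun p hp _ => hfr p hp) x fun t ht => eq_one_of_mem_zpowers rL ε hpair
          (Finset.mem_filter.mp hx).2 ht
  choose! B hB using hN
  -- comparison with the indicator of the class, and counting
  have hΓ : (0 : ℝ) < Nat.card (E ≃ₐ[ℚ] E) := Nat.cast_pos.mpr Nat.card_pos
  have hind : ∀ p, 0 ≤ frobInd φ S g p ∧ frobInd φ S g p ≤ 1 := fun p => by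
    rw [frobInd]; split_ifs <;> norm_num
  refine exists_le_primeSum_of_eventually (fun p => (hind p).1)
    (eventually_le_primeSum good N B _ hΓ ?_ (fun x p => ?_) hind (fun p hp => ?_) hB)
  · exact mul_card_le_card_good rG rL ε
      (fun a => (hsurj a).elim fun σ e => ⟨_, (hrG σ).trans e⟩) hpair hdvd
      (sub_one_le_card_gal hmp hζ E le_sup_right) hk₀.le
  · simp only [N]; split_ifs
    · exact ⟨le_rfl, hΓ.le⟩
    · exact ⟨Nat.cast_nonneg _, Nat.cast_le.mpr (Finite.card_subtype_le _)⟩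
  · simp only [N]
    split_ifs with hpS
    · simpa using mul_nonneg hΓ.le (hind p).1
    refine sum_card_conj_le good (fr p) (hind p).1 fun t ht => ?_
    obtain ⟨A, σ, hA, hσ, hfrp⟩ := hfr p hp
    refine if_pos ⟨(hS₁ p hpS).2.1, A, σ, hA, hσ, ?_⟩
    refine (Finset.mem_filter.mp (Finset.mem_filter.mp ht).1).2.trans ?_
    rw [map_mul, map_mul, map_inv, ← hfrp, hrG]
    exact (isConj_iff.mpr ⟨rG t, rfl⟩).symm

end FermatAgent.DS
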