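import Fermat.Agent.CFT.EulerBounds
import Fermat.Agent.GaloisBasic.IdealCount

/-!
# Sums over rational primes weighted by the number of degree one primes above them

The sum over the rational primes weighted by `idealCount K` grows like `log (1 / (s - 1))`.
-/

set_option autoImplicit false

noncomputable section

open NumberField IsDedekindDomain Module
open Filter Topology
open scoped Classical nonZeroDivisors

namespace FermatAgent.DS.Cheb

open FermatAgent.CFT
open FermatAgent.GaloisBasic (idealCount idealCount_prime_le)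

/-- A complex sum over rational primes. -/
def primeSumC (g : ℕ → ℂ) (s : ℝ) : ℂ :=
  ∑' p : Nat.Primes, g p * ((((p : ℕ) : ℝ) ^ (-s) : ℝ) : ℂ)

theorem summable_primeSumC {g : ℕ → ℂ} {R : ℝ} (hg : ∀ p, p.Prime → ‖g p‖ ≤ R) {s : ℝ}
    (hs : 1 < s) : Summable fun p : Nat.Primes => g p * ((((p : ℕ) : ℝ) ^ (-s) : ℝ) : ℂ) :=
  Summable.of_norm_bounded ((Nat.Primes.summable_rpow.mpr (by linarith : -s < -1)).mul_left R)
    fun p => by
      rw [norm_mul, Complex.norm_real, Real.norm_eq_abs,
        abs_of_nonneg (Real.rpow_nonneg (Nat.cast_nonneg _) _)]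
      exact mul_le_mul_of_nonneg_right (hg _ p.2) (Real.rpow_nonneg (Nat.cast_nonneg _) _)

/-- For bounded coefficients the prime sum commutes with finite linear combinations, for `s > 1`. -/
theorem primeSumC_sum {ι : Type*} (T : Finset ι) (c : ι → ℂ) (g : ι → ℕ → ℂ) {R : ℝ}
    (hg : ∀ i ∈ T, ∀ p, p.Prime → ‖g i p‖ ≤ R) {s : ℝ} (hs : 1 < s) :
    primeSumC (fun p => ∑ i ∈ T, c i * g i p) s = ∑ i ∈ T, c i * primeSumC (g i) s := by
  simp only [primeSumC, ← tsum_mul_left, Finset.sum_mul, mul_assoc]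
  exact Summable.tsum_finsetSum fun i hi => (summable_primeSumC (hg i hi) hs).mul_left _

/-- Functions equal at almost all primes have sums at bounded distance. -/
theorem exists_primeSumC_sub_le {g g' : ℕ → ℂ} {R : ℝ} (hg : ∀ p, p.Prime → ‖g p‖ ≤ R)
    (hg' : ∀ p, p.Prime → ‖g' p‖ ≤ R) (S : Finset ℕ)
    (h : ∀ p, p.Prime → p ∉ S → g p = g' p) :
    ∃ B : ℝ, ∀ s : ℝ, 1 < s → ‖primeSumC g s - primeSumC g' s‖ ≤ B := by
  refine ⟨∑' p : Nat.Primes, if (p : ℕ) ∈ S then 2 * R else 0, fun s hs => ?_⟩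
  rw [primeSumC, primeSumC, ← (summable_primeSumC hg hs).tsum_sub (summable_primeSumC hg' hs)]
  refine tsum_of_norm_bounded (Summable.hasSum ?_) fun p => ?_
  · refine summable_of_hasFiniteSupport ((Set.Finite.preimage Nat.Primes.coe_nat_injective.injOn
      S.finite_toSet).subset fun p hp => ?_)
    by_contra h'
    exact hp (if_neg h')
  · by_cases hp : (p : ℕ) ∈ S
    · rw [if_pos hp, ← sub_mul, norm_mul, Complex.norm_real, Real.norm_eq_abs,
        abs_of_nonneg (Real.rpow_nonneg (Nat.cast_nonneg _) _)]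
      have hR : 0 ≤ R := (norm_nonneg _).trans (hg _ p.2)
      refine (mul_le_of_le_one_right (norm_nonneg _) ?_).trans ((norm_sub_le _ _).trans ?_)
      · exact Real.rpow_le_one_of_one_le_of_nonpos (Nat.one_le_cast.mpr p.2.one_le) (by linarith)
      · linarith [hg _ p.2, hg' _ p.2]
    · rw [if_neg hp, h _ p.2 hp, sub_self, norm_zero]

variable (K : Type) [Field K] [NumberField K]

/-- At most `2 ^ [K : ℚ]` ideals are counted at a rational prime. -/
theorem idealCount_le {p : ℕ} (hp : p.Prime) : idealCount K p ≤ 2 ^ finrank ℤ (𝓞 K) :=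
  (idealCount_prime_le K hp).trans Nat.lt_two_pow_self.le

/-- Sums over the primes of `K` and over rational primes differ by a bounded amount. -/
theorem exists_fibre_bound : ∃ T : ℝ, ∀ g : ℕ → ℂ, (∀ n, ‖g n‖ ≤ 1) → ∀ s : ℝ, 1 < s →
    ‖(∑' P : HeightOneSpectrum (𝓞 K), g (Ideal.absNorm P.asIdeal) * (primePow s P : ℂ)) -
      primeSumC (fun p => (idealCount K p : ℂ) * g p) s‖ ≤ T := by
  obtain ⟨T, hT⟩ := exists_tsum_nonPrimeNorm_le K
  refine ⟨T, fun g hg s hs => ?_⟩
  set F : HeightOneSpectrum (𝓞 K) → ℂ := fun P => g (Ideal.absNorm P.asIdeal) * (primePow s P : ℂ)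
  set A : Set (HeightOneSpectrum (𝓞 K)) := {P | (Ideal.absNorm P.asIdeal).Prime}
  have hFn : ∀ P, ‖F P‖ ≤ primePow s P := fun P => by
    rw [norm_mul, Complex.norm_real, Real.norm_eq_abs, abs_of_pos (primePow_pos s P)]
    exact mul_le_of_le_one_left (primePow_pos s P).le (hg _)
  have hF : Summable F := Summable.of_norm_bounded (summable_primePow hs) hFn
  have hA : ∑' P : A, F P.1 = primeSumC (fun p => (idealCount K p : ℂ) * g p) s := by
    let e : (Σ p : Nat.Primes, {I : Ideal (𝓞 K) // Ideal.absNorm I = (p : ℕ)}) → A := fun z =>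
      ⟨⟨z.2.1, Ideal.isPrime_of_irreducible_absNorm (z.2.2.symm ▸ z.1.2),
        fun h => z.1.2.ne_zero (by rw [← z.2.2, h, Ideal.absNorm_bot])⟩,
        show (Ideal.absNorm z.2.1).Prime from z.2.2.symm ▸ z.1.2⟩
    have he : Function.Bijective e := by
      refine ⟨?_, fun P => ⟨⟨⟨_, P.2⟩, ⟨P.1.asIdeal, rfl⟩⟩, rfl⟩⟩
      rintro ⟨p, I, hI⟩ ⟨p', I', hI'⟩ h
      have h' : I = I' := congrArg (fun P : A => P.1.asIdeal) h
      subst h'
      obtain rfl : p = p' := Subtype.ext (hI.symm.trans hI')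
      rfl
    rw [← (Equiv.ofBijective e he).tsum_eq]
    have hs' : Summable fun z => F ((Equiv.ofBijective e he) z).1 :=
      (hF.comp_injective Subtype.val_injective).comp_injective (Equiv.injective _)
    rw [hs'.tsum_sigma]
    refine tsum_congr fun p => ?_
    have hval : ∀ I : {I : Ideal (𝓞 K) // Ideal.absNorm I = (p : ℕ)},
        F ((Equiv.ofBijective e he) ⟨p, I⟩).1 = g p * ((((p : ℕ) : ℝ) ^ (-s) : ℝ) : ℂ) :=
      fun I => by
        simp only [F, primePow, normPow, Equiv.ofBijective_apply, e, coe_primeIdeal, I.2]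
    rw [tsum_congr hval, tsum_const, nsmul_eq_mul]
    simp only [FermatAgent.GaloisBasic.idealCount]
    ring
  rw [← hA, ← Summable.tsum_add_tsum_compl (s := A) (hF.comp_injective Subtype.val_injective)
    (hF.comp_injective Subtype.val_injective), add_sub_cancel_left]
  exact (tsum_of_norm_bounded ((summable_primePow hs).comp_injective Subtype.val_injective).hasSum
    fun P => hFn P.1).trans (hT s hs)

/-- The sum over the degree one primes grows like `log (1 / (s - 1))`. -/
theorem exists_abs_primeSum_idealCount_le :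
    ∃ B : ℝ, ∀ᶠ s in 𝓝[>] (1 : ℝ),
      ‖primeSumC (fun p => (idealCount K p : ℂ)) s - (Real.log (1 / (s - 1)) : ℂ)‖ ≤ B := by
  obtain ⟨c, C, hc, hz⟩ := eventually_zetaSum_bounds K
  obtain ⟨T, hT⟩ := exists_fibre_bound K
  obtain ⟨T', hT'⟩ := exists_zetaSum_le_exp K
  refine ⟨T + (|Real.log C| + |Real.log c| + |T'|), ?_⟩
  filter_upwards [hz, self_mem_nhdsWithin] with s hs (hs1 : 1 < s)
  have hs0 : 0 < s - 1 := sub_pos.mpr hs1
  have hC : 0 < C := by
    have := (div_pos hc hs0).trans_le (hs.1.trans hs.2)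
    exact (div_pos_iff_of_pos_right hs0).mp this
  set X := ∑' P : HeightOneSpectrum (𝓞 K), primePow s P
  have h1 : X ≤ Real.log C + Real.log (1 / (s - 1)) := by
    have h := Real.log_le_log (Real.exp_pos _) ((exp_tsum_primePow_le_zetaSum hs1).trans hs.2)
    rw [Real.log_exp, div_eq_mul_one_div, Real.log_mul hC.ne' (one_div_pos.mpr hs0).ne'] at h
    exact h
  have h2 : Real.log c + Real.log (1 / (s - 1)) - T' ≤ X := by
    have h := Real.log_le_log (div_pos hc hs0) (hs.1.trans (hT' s hs1))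
    rw [Real.log_exp, div_eq_mul_one_div, Real.log_mul hc.ne' (one_div_pos.mpr hs0).ne'] at h
    linarith
  have h3 := hT (fun _ => 1) (fun _ => norm_one.le) s hs1
  simp only [one_mul, mul_one, ← Complex.ofReal_tsum] at h3
  refine (norm_sub_le_norm_sub_add_norm_sub _ (X : ℂ) _).trans (add_le_add ?_ ?_)
  · rwa [norm_sub_rev]
  · rw [← Complex.ofReal_sub, Complex.norm_real, Real.norm_eq_abs, abs_le]
    constructor <;>
      linarith [le_abs_self (Real.log C), neg_abs_le (Real.log c), le_abs_self T',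
        abs_nonneg T', abs_nonneg (Real.log C), abs_nonneg (Real.log c)]

end FermatAgent.DS.Cheb
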