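import Fermat.Agent.DS.Cheb.PrimeSum
import Fermat.Agent.GaloisBasic.Density

/-!
# Density of an element detected by a cyclotomic character

If the powers of `x` are separated by the cyclotomic character, the primes weighted by the number
of ways their Frobenius elements are conjugate to `x` have the sum `log (1 / (s - 1))` up to a
bounded amount.
-/

set_option autoImplicit false

noncomputable section

open NumberField Module
open Filter Topology Asymptotics
open scoped Classical nonZeroDivisors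

namespace FermatAgent.DS.Cheb

open FermatAgent.GaloisBasic (Qbar GQ idealCount InertiaTrivial idealCount_fixedField_mul_card
  exists_frobenius_generating)

/-- Bounded as `s → 1+`. -/
def Bdd (f : ℝ → ℂ) : Prop := f =O[𝓝[>] (1 : ℝ)] fun _ => (1 : ℝ)

theorem Bdd.of_eventually {f : ℝ → ℂ} {B : ℝ} (h : ∀ᶠ s in 𝓝[>] (1 : ℝ), ‖f s‖ ≤ B) : Bdd f :=
  IsBigO.of_bound B (by simpa using h)

theorem Bdd.of_forall {f : ℝ → ℂ} {B : ℝ} (h : ∀ s : ℝ, 1 < s → ‖f s‖ ≤ B) : Bdd f :=
  Bdd.of_eventually (eventually_nhdsWithin_of_forall fun s hs => h s hs)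

/-- A function bounded as `s → 1+` is bounded by a constant near `1` on the right. -/
theorem Bdd.exists_bound {f : ℝ → ℂ} (h : Bdd f) : ∃ B, ∀ᶠ s in 𝓝[>] (1 : ℝ), ‖f s‖ ≤ B := by
  obtain ⟨c, hc⟩ := h.bound
  exact ⟨c, by simpa using hc⟩

theorem Bdd.congr {f g : ℝ → ℂ} (h : Bdd f) (e : ∀ᶠ s in 𝓝[>] (1 : ℝ), f s = g s) : Bdd g :=
  h.congr' e (EventuallyEq.refl _ _)

/-- Prime sums of weights that agree outside a finite set differ by a bounded amount. -/
private lemma bdd_primeSumC_sub {g g' : ℕ → ℂ} {R R' : ℝ} (hg : ∀ p, p.Prime → ‖g p‖ ≤ R)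
    (hg' : ∀ p, p.Prime → ‖g' p‖ ≤ R') (S : Finset ℕ)
    (h : ∀ p, p.Prime → p ∉ S → g p = g' p) :
    Bdd fun s => primeSumC g s - primeSumC g' s := by
  obtain ⟨B, hB⟩ := exists_primeSumC_sub_le (fun p hp => (hg p hp).trans (le_max_left R R'))
    (fun p hp => (hg' p hp).trans (le_max_right R R')) S h
  exact Bdd.of_forall hB

section Weights

variable (K : Type) [Field K] [NumberField K] {m : ℕ}

/-- The number of prime ideals of degree one of `K` over `p`, if `p ≡ u (mod m)`. -/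
private def classWeight (u : (ZMod m)ˣ) (p : ℕ) : ℂ :=
  if (p : ZMod m) = u then (idealCount K p : ℂ) else 0

/-- The prime sum of `K` twisted by `χ`. -/
private def charSum (χ : DirichletCharacter ℂ m) (s : ℝ) : ℂ :=
  primeSumC (fun p => (idealCount K p : ℂ) * χ (p : ZMod m)) s

/-- `idealCount` at primes is bounded. -/
private lemma norm_idealCount_le {p : ℕ} (hp : p.Prime) :
    ‖(idealCount K p : ℂ)‖ ≤ 2 ^ finrank ℤ (𝓞 K) := by
  rw [Complex.norm_natCast]
  exact_mod_cast idealCount_le K hp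

/-- The twisted weights are bounded. -/
private lemma norm_idealCount_mul_char_le (χ : DirichletCharacter ℂ m) {p : ℕ} (hp : p.Prime) :
    ‖(idealCount K p : ℂ) * χ (p : ZMod m)‖ ≤ 2 ^ finrank ℤ (𝓞 K) :=
  (norm_mul _ _).trans_le
    ((mul_le_of_le_one_right (norm_nonneg _) (χ.norm_le_one _)).trans (norm_idealCount_le K hp))

/-- The weights of a residue class are bounded. -/
private lemma norm_natCast_mul_classWeight_le (o : ℕ) (u : (ZMod m)ˣ) {p : ℕ} (hp : p.Prime) :
    ‖(o : ℂ) * classWeight K u p‖ ≤ o * 2 ^ finrank ℤ (𝓞 K) := by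
  rw [norm_mul, Complex.norm_natCast, classWeight]
  refine mul_le_mul_of_nonneg_left ?_ (Nat.cast_nonneg o)
  split_ifs
  · exact norm_idealCount_le K hp
  · rw [norm_zero]; positivity

/-- Weights agreeing with `idealCount` outside a finite set sum to `log (1 / (s - 1))`. -/
private lemma bdd_sub_log {g : ℕ → ℂ} {R : ℝ} (hg : ∀ p, p.Prime → ‖g p‖ ≤ R) (S : Finset ℕ)
    (h : ∀ p, p.Prime → p ∉ S → g p = idealCount K p) :
    Bdd fun s => primeSumC g s - (Real.log (1 / (s - 1)) : ℂ) := by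
  obtain ⟨B, hB⟩ := exists_abs_primeSum_idealCount_le K
  refine Bdd.congr (IsBigO.add (bdd_primeSumC_sub hg (fun _ hp => norm_idealCount_le K hp) S h)
    (Bdd.of_eventually hB)) (Eventually.of_forall fun s => ?_)
  ring

/-- Orthogonality of the characters modulo `m`. -/
private lemma primeSumC_classWeight_orth [NeZero m] (u : (ZMod m)ˣ) {s : ℝ} (hs : 1 < s) :
    (m.totient : ℂ) * primeSumC (classWeight K u) s =
      ∑ χ : DirichletCharacter ℂ m, χ ((u⁻¹ : (ZMod m)ˣ) : ZMod m) * charSum K χ s := by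
  unfold charSum
  rw [← primeSumC_sum Finset.univ
      (fun χ : DirichletCharacter ℂ m => χ ((u⁻¹ : (ZMod m)ˣ) : ZMod m))
      (fun χ p => (idealCount K p : ℂ) * χ (p : ZMod m))
      (fun χ _ p hp => norm_idealCount_mul_char_le K χ hp) hs, primeSumC, primeSumC,
    ← tsum_mul_left]
  refine tsum_congr fun p => ?_
  rw [← mul_assoc]
  congr 1
  simp only [classWeight, mul_left_comm _ (idealCount K (p : ℕ) : ℂ), ← Finset.mul_sum, ← map_mul,
    DirichletCharacter.sum_characters_eq, Units.inv_mul_eq_one]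
  split_ifs with h1 h2 h3
  · rw [mul_comm]
  · exact absurd h1.symm h2
  · exact absurd h3.symm h1
  · simp

/-- If twisted sums have bounded total and each exponentiated logarithm of an `L`-function has a
limit at `1`, each twisted sum is bounded. -/
private lemma bdd_charSum_of_bdd_sum [NeZero m] {G : Finset (DirichletCharacter ℂ m)}
    (hsum : Bdd fun s => ∑ χ ∈ G, charSum K χ s)
    (hlim : ∀ χ ∈ G, ∃ ℓ : ℂ, Tendsto (fun s => Complex.exp (logL K χ s)) (𝓝[>] 1) (𝓝 ℓ)) :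
    ∀ χ ∈ G, Bdd (charSum K χ) := by
  choose! ℓ hℓ using hlim
  have hT : ∀ χ : DirichletCharacter ℂ m, Bdd fun s => logL K χ s - charSum K χ s := fun χ => by
    obtain ⟨T, hT⟩ := exists_logL_sub_le K χ
    exact Bdd.of_forall hT
  -- upper bounds for the real parts
  have hup : ∀ χ ∈ G, ∀ᶠ s in 𝓝[>] (1 : ℝ), (logL K χ s).re ≤ ‖ℓ χ‖ + 1 := by
    intro χ hχ
    filter_upwards [(hℓ χ hχ).norm.eventually (eventually_le_nhds (lt_add_one ‖ℓ χ‖))] with s hs
    rw [Complex.norm_exp] at hs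
    linarith [Real.add_one_le_exp (logL K χ s).re]
  have hGlog : Bdd fun s => ∑ χ ∈ G, logL K χ s :=
    Bdd.congr (IsBigO.add hsum (IsBigO.fun_sum (s := G) fun χ _ => hT χ))
      (Eventually.of_forall fun s => by simp [Finset.sum_sub_distrib])
  obtain ⟨B, hB⟩ := hGlog.exists_bound
  intro χ hχ
  set L : ℝ := -(B + ∑ χ' ∈ G, (‖ℓ χ'‖ + 1))
  have hlow : ∀ᶠ s in 𝓝[>] (1 : ℝ), L ≤ (logL K χ s).re := by
    filter_upwards [hB, (eventually_all_finset G).mpr hup] with s hs hs'
    have h1 : -B ≤ ∑ χ' ∈ G, (logL K χ' s).re := by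
      rw [← Complex.re_sum]
      linarith [(abs_le.mp ((Complex.abs_re_le_norm _).trans hs)).1]
    rw [← Finset.add_sum_erase _ _ hχ] at h1
    have h2 : ∑ χ' ∈ G.erase χ, (logL K χ' s).re ≤ ∑ χ' ∈ G, (‖ℓ χ'‖ + 1) :=
      (Finset.sum_le_sum fun χ' h => hs' χ' (Finset.mem_of_mem_erase h)).trans
        (Finset.sum_le_sum_of_subset_of_nonneg (Finset.erase_subset _ _)
          fun _ _ _ => by positivity)
    simp only [L]
    linarith
  have hℓ0 : ℓ χ ≠ 0 := by
    intro h0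
    have h1 := (hℓ χ hχ).norm
    rw [h0, norm_zero] at h1
    obtain ⟨s, hs, hs'⟩ := ((h1.eventually (Iio_mem_nhds (Real.exp_pos L))).and hlow).exists
    rw [Complex.norm_exp] at hs
    exact (Real.exp_le_exp.mpr hs').not_gt hs
  obtain ⟨B', hB'⟩ := exists_bound_of_exp_tendsto (continuousOn_logL (K := K) χ) hℓ0 (hℓ χ hχ)
  refine Bdd.congr (IsBigO.sub (Bdd.of_eventually hB') (hT χ)) (Eventually.of_forall fun s => ?_)
  ring

end Weights

variable (E : IntermediateField ℚ Qbar) [FiniteDimensional ℚ E] [IsGalois ℚ E]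
variable {m : ℕ} [NeZero m]

/-- `o Σ g = Σ o g`. -/
private lemma natCast_mul_primeSumC (o : ℕ) (g : ℕ → ℂ) (s : ℝ) :
    (o : ℂ) * primeSumC g s = primeSumC (fun p => (o : ℂ) * g p) s := by
  simp only [primeSumC, ← tsum_mul_left, mul_assoc]

/-- The number of characters trivial at `u`, times the order of `u`, is `φ m`. -/
private lemma card_charFilter_mul_orderOf (u : (ZMod m)ˣ) :
    ((Finset.univ : Finset (DirichletCharacter ℂ m)).filter
      fun χ => χ (u : ZMod m) = 1).card * orderOf u = m.totient := by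
  set o := orderOf u with ho
  set F := (Finset.univ : Finset (DirichletCharacter ℂ m)).filter fun χ => χ (u : ZMod m) = 1
  have hord : ∀ j : ℕ, (u : ZMod m) ^ j = 1 ↔ o ∣ j := fun j => by
    rw [← Units.val_pow_eq_pow_val, Units.val_eq_one, ho, orderOf_dvd_iff_pow_eq_one]
  have h1 : ∑ χ : DirichletCharacter ℂ m, ∑ j ∈ Finset.range o,
      χ ((u : ZMod m) ^ j) = (m.totient : ℂ) := by
    rw [Finset.sum_comm]
    simp only [DirichletCharacter.sum_characters_eq, hord]
    rw [Finset.sum_eq_single 0 (fun j hj hj0 => if_neg fun h =>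
      hj0 (Nat.eq_zero_of_dvd_of_lt h (Finset.mem_range.mp hj)))
      (fun h => absurd (Finset.mem_range.mpr (orderOf_pos u)) h), if_pos (dvd_zero _)]
  have h2 : ∀ χ : DirichletCharacter ℂ m, ∑ j ∈ Finset.range o,
      χ ((u : ZMod m) ^ j) = if χ ∈ F then (o : ℂ) else 0 := by
    intro χ
    simp only [map_pow, F, Finset.mem_filter, Finset.mem_univ, true_and]
    split_ifs with h
    · simp [h]
    · rw [geom_sum_eq h, ← map_pow, (hord o).mpr dvd_rfl, map_one, sub_self, zero_div]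
  rw [Finset.sum_congr rfl fun χ _ => h2 χ, Finset.sum_ite_mem, Finset.univ_inter,
    Finset.sum_const, nsmul_eq_mul] at h1
  exact_mod_cast h1

section Steps

variable {E} {S₁ : Finset ℕ} {ε : (E ≃ₐ[ℚ] E) →* (ZMod m)ˣ} {fr : ℕ → (E ≃ₐ[ℚ] E)}
  {x : E ≃ₐ[ℚ] E}

omit [FiniteDimensional ℚ E] [IsGalois ℚ E] [NeZero m] in
/-- A character of a group is invariant under conjugation. -/
private lemma map_conj_eq (t y : E ≃ₐ[ℚ] E) : ε (t * y * t⁻¹) = ε y := by
  rw [map_mul, map_mul, mul_comm (ε t), mul_assoc, ← map_mul, mul_inv_cancel, map_one, mul_one]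

omit [FiniteDimensional ℚ E] [IsGalois ℚ E] [NeZero m] in
/-- If `ε` separates the powers of `x`, then `ε x` has the order of `x`. -/
private lemma orderOf_map_eq (hinj : ∀ t ∈ Subgroup.zpowers x, ε t = 1 → t = 1) :
    orderOf (ε x) = Nat.card (Subgroup.zpowers x) := by
  rw [Nat.card_zpowers, orderOf_eq_orderOf_iff]
  intro j
  rw [← map_pow]
  exact ⟨fun h => hinj _ (pow_mem (Subgroup.mem_zpowers x) j) h, fun h => by rw [h, map_one]⟩

variable [NumberField E] [NumberField (IntermediateField.fixedField (Subgroup.zpowers x))]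
  (hU : ∀ p, p.Prime → p ∉ S₁ → InertiaTrivial E p)
  (hε : ∀ p, p.Prime → p ∉ S₁ → ∀ (A : ValuationSubring Qbar) (σ : GQ), A.LiesOverPrime p →
    A.IsFrobeniusAt σ p → ((ε (AlgEquiv.restrictNormalHom E σ) : (ZMod m)ˣ) : ZMod m) = p)
  (hfr : ∀ p, p.Prime → p ∉ S₁ → ∃ (A : ValuationSubring Qbar) (σ : GQ),
    A.LiesOverPrime p ∧ A.IsFrobeniusAt σ p ∧ AlgEquiv.restrictNormalHom E σ = fr p)
  (hinj : ∀ t ∈ Subgroup.zpowers x, ε t = 1 → t = 1)

include hU hε

local notation "Kₓ" => IntermediateField.fixedField (Subgroup.zpowers x)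

/-- For a character nontrivial at `ε x`, `exp (logL)` has a limit at `1`, because a prime ideal of
the fixed field of `x` detects it. -/
private lemma exists_tendsto_exp_logL {χ : DirichletCharacter ℂ m}
    (hχ : ¬χ ((ε x : (ZMod m)ˣ) : ZMod m) = 1) :
    ∃ ℓ : ℂ, Tendsto (fun s => Complex.exp (logL Kₓ χ s)) (𝓝[>] 1) (𝓝 ℓ) := by
  obtain ⟨q, A, σ, hq, hqS, hA, hσ, -, hgen⟩ := exists_frobenius_generating E x S₁
  have hqpos : idealCount Kₓ q ≠ 0 := by
    intro h
    have h1 := idealCount_fixedField_mul_card (Subgroup.zpowers x) hq hA (hU q hq hqS) hσ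
    rw [h, zero_mul, eq_comm] at h1
    have : Nonempty {t : E ≃ₐ[ℚ] E //
        t * AlgEquiv.restrictNormalHom E σ * t⁻¹ ∈ Subgroup.zpowers x} :=
      ⟨⟨1, by rw [one_mul, inv_one, mul_one, ← hgen]; exact Subgroup.mem_zpowers _⟩⟩
    exact Nat.card_pos.ne' h1
  obtain ⟨⟨I, hI⟩⟩ := (Nat.card_ne_zero.mp hqpos).1
  have hI0 : I ≠ 0 := fun h => hq.ne_zero (by rw [← hI, h]; simp)
  obtain ⟨i, hi⟩ := (isOfFinOrder_of_finite _).mem_powers_iff_mem_zpowers.mpr
    (hgen.symm ▸ Subgroup.mem_zpowers x :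
      x ∈ Subgroup.zpowers (AlgEquiv.restrictNormalHom E σ))
  set B : (Ideal (𝓞 Kₓ))⁰ := ⟨I, mem_nonZeroDivisors_iff_ne_zero.mpr hI0⟩
  have hBq : normChar χ B = χ ((ε (AlgEquiv.restrictNormalHom E σ) : (ZMod m)ˣ) : ZMod m) := by
    rw [hε q hq hqS A σ hA hσ]
    simp [normChar, B, hI]
  obtain ⟨ℓ, hℓ⟩ := exists_tendsto_normL χ B
    (by
      rw [hBq]
      intro h0
      have h1 := map_one χ
      rw [← Units.mul_inv (ε (AlgEquiv.restrictNormalHom E σ)), map_mul, h0, zero_mul] at h1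
      exact zero_ne_one h1)
    (by
      rw [hBq]
      intro h1
      refine hχ ?_
      rw [show x = _ from hi.symm, map_pow, Units.val_pow_eq_pow_val, map_pow, h1, one_pow])
  refine ⟨ℓ, hℓ.congr' ?_⟩
  filter_upwards [self_mem_nhdsWithin] with s (hs : 1 < s) using (exp_logL χ hs).symm

include hfr

omit [NeZero m] in
/-- A character trivial at `ε x` has twisted sum `log (1 / (s - 1))`. -/
private lemma bdd_charSum_of_eq_one {χ : DirichletCharacter ℂ m}
    (hχ : χ ((ε x : (ZMod m)ˣ) : ZMod m) = 1) :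
    Bdd fun s => charSum Kₓ χ s - (Real.log (1 / (s - 1)) : ℂ) := by
  refine bdd_sub_log Kₓ (fun p hp => norm_idealCount_mul_char_le Kₓ χ hp) S₁ fun p hp hpS => ?_
  rcases Nat.eq_zero_or_pos (idealCount Kₓ p) with h | h
  · simp [h]
  obtain ⟨A, σ, hA, hσ, -⟩ := hfr p hp hpS
  have h1 := idealCount_fixedField_mul_card (Subgroup.zpowers x) hp hA (hU p hp hpS) hσ
  have hne : Nat.card {t : E ≃ₐ[ℚ] E //
      t * AlgEquiv.restrictNormalHom E σ * t⁻¹ ∈ Subgroup.zpowers x} ≠ 0 :=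
    h1 ▸ (Nat.mul_pos h Nat.card_pos).ne'
  obtain ⟨⟨t, ht⟩⟩ := (Nat.card_ne_zero.mp hne).1
  obtain ⟨j, hj⟩ := (isOfFinOrder_of_finite x).mem_powers_iff_mem_zpowers.mpr ht
  have hj' : ε (AlgEquiv.restrictNormalHom E σ) = ε x ^ j := by
    rw [← map_pow, show x ^ j = _ from hj, map_conj_eq]
  rw [← hε p hp hpS A σ hA hσ, hj', Units.val_pow_eq_pow_val, map_pow, hχ, one_pow, mul_one]

include hinj

omit [NeZero m] in
/-- The class `1`: the completely split primes. -/
private lemma bdd_split : Bdd fun s => (Nat.card (Subgroup.zpowers x) : ℂ) *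
    primeSumC (classWeight Kₓ (1 : (ZMod m)ˣ)) s - (Real.log (1 / (s - 1)) : ℂ) := by
  simp only [natCast_mul_primeSumC]
  have : NumberField (IntermediateField.fixedField (⊥ : Subgroup (E ≃ₐ[ℚ] E))) := {}
  refine bdd_sub_log (IntermediateField.fixedField (⊥ : Subgroup (E ≃ₐ[ℚ] E)))
    (fun p hp => norm_natCast_mul_classWeight_le Kₓ _ _ hp) S₁ fun p hp hpS => ?_
  obtain ⟨A, σ, hA, hσ, -⟩ := hfr p hp hpS
  have hεφ := hε p hp hpS A σ hA hσ
  have h0 := idealCount_fixedField_mul_card (⊥ : Subgroup (E ≃ₐ[ℚ] E)) hp hA (hU p hp hpS) hσ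
  rw [Subgroup.card_bot, mul_one] at h0
  simp only [classWeight]
  split_ifs with hp1
  · rw [mul_comm, ← Nat.cast_mul,
      idealCount_fixedField_mul_card (Subgroup.zpowers x) hp hA (hU p hp hpS) hσ, h0]
    refine congrArg Nat.cast (Nat.card_congr (Equiv.subtypeEquivRight fun t => ?_))
    rw [Subgroup.mem_bot]
    refine ⟨fun h => hinj _ h ?_, fun h => by rw [h]; exact Subgroup.one_mem _⟩
    rw [map_conj_eq]
    exact Units.ext (hεφ.trans (hp1.trans rfl))
  · rw [mul_zero, h0, eq_comm, Nat.cast_eq_zero]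
    refine Nat.card_eq_zero.mpr (Or.inl ⟨fun ⟨t, ht⟩ => hp1 ?_⟩)
    rw [← hεφ, conj_eq_one_iff.mp (Subgroup.mem_bot.mp ht), map_one]

omit [NeZero m] in
/-- The class `ε x`: the primes with Frobenius conjugate to `x`. -/
private lemma bdd_conj : Bdd fun s => primeSumC (fun p => if p ∈ S₁ then 0 else
    (Nat.card {t : E ≃ₐ[ℚ] E // t * fr p * t⁻¹ = x} : ℂ)) s -
      (Nat.card (Subgroup.zpowers x) : ℂ) * primeSumC (classWeight Kₓ (ε x)) s := by
  simp only [natCast_mul_primeSumC]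
  refine bdd_primeSumC_sub (R := Nat.card (E ≃ₐ[ℚ] E)) (fun p _ => ?_)
    (fun p hp => norm_natCast_mul_classWeight_le Kₓ _ _ hp) S₁ fun p hp hpS => ?_
  · split_ifs
    · rw [norm_zero]; positivity
    · rw [Complex.norm_natCast]
      exact_mod_cast Finite.card_subtype_le _
  obtain ⟨A, σ, hA, hσ, hfrp⟩ := hfr p hp hpS
  have hεφ := hε p hp hpS A σ hA hσ
  rw [hfrp] at hεφ
  simp only [classWeight, if_neg hpS]
  split_ifs with hp1
  · rw [mul_comm, ← Nat.cast_mul,
      idealCount_fixedField_mul_card (Subgroup.zpowers x) hp hA (hU p hp hpS) hσ, hfrp]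
    refine congrArg Nat.cast (Nat.card_congr (Equiv.subtypeEquivRight fun t => ?_))
    refine ⟨fun h => h ▸ Subgroup.mem_zpowers x, fun h => mul_inv_eq_one.mp (hinj _
      (Subgroup.mul_mem _ h (Subgroup.inv_mem _ (Subgroup.mem_zpowers x))) ?_)⟩
    rw [map_mul, map_inv, map_conj_eq, mul_inv_eq_one]
    exact Units.ext (hεφ.trans hp1)
  · rw [mul_zero, Nat.cast_eq_zero]
    refine Nat.card_eq_zero.mpr (Or.inl ⟨fun ⟨t, ht⟩ => hp1 ?_⟩)
    rw [← hεφ, ← ht, map_conj_eq]

/-- The characters nontrivial at `ε x` have bounded total. -/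
private lemma bdd_sum_charSum_of_ne_one :
    Bdd fun s => ∑ χ ∈ (Finset.univ : Finset (DirichletCharacter ℂ m)).filter
      (fun χ => ¬χ ((ε x : (ZMod m)ˣ) : ZMod m) = 1), charSum Kₓ χ s := by
  set F := (Finset.univ : Finset (DirichletCharacter ℂ m)).filter fun χ =>
    χ ((ε x : (ZMod m)ˣ) : ZMod m) = 1
  have hFc : (F.card : ℂ) * Nat.card (Subgroup.zpowers x) = m.totient := by
    rw [← orderOf_map_eq hinj]
    exact_mod_cast card_charFilter_mul_orderOf (ε x)
  have h1 : Bdd fun s => (F.card : ℂ) * ((Nat.card (Subgroup.zpowers x) : ℂ) *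
      primeSumC (classWeight Kₓ (1 : (ZMod m)ˣ)) s - (Real.log (1 / (s - 1)) : ℂ)) -
      ∑ χ ∈ F, (charSum Kₓ χ s - (Real.log (1 / (s - 1)) : ℂ)) :=
    IsBigO.sub ((bdd_split hU hε hfr hinj).const_mul_left _) (IsBigO.fun_sum fun χ hχ =>
      bdd_charSum_of_eq_one hU hε hfr (Finset.mem_filter.mp hχ).2)
  refine h1.congr (eventually_nhdsWithin_of_forall fun s (hs : 1 < s) => ?_)
  rw [mul_sub, ← mul_assoc, hFc, primeSumC_classWeight_orth _ 1 hs, inv_one, Units.val_one,
    Finset.sum_sub_distrib, Finset.sum_const, nsmul_eq_mul]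
  simp only [map_one, one_mul]
  rw [← Finset.sum_filter_add_sum_filter_not Finset.univ
    fun χ : DirichletCharacter ℂ m => χ ((ε x : (ZMod m)ˣ) : ZMod m) = 1]
  ring

end Steps

/-- `Σ p ^ (-s)` with the cyclotomic weights, at the level of the field fixed by `x`. -/
theorem exists_primeSum_conj (ε : (E ≃ₐ[ℚ] E) →* (ZMod m)ˣ) (S₁ : Finset ℕ)
    (hU : ∀ p, p.Prime → p ∉ S₁ → InertiaTrivial E p)
    (hε : ∀ p, p.Prime → p ∉ S₁ → ∀ (A : ValuationSubring Qbar) (σ : GQ), A.LiesOverPrime p →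
      A.IsFrobeniusAt σ p → ((ε (AlgEquiv.restrictNormalHom E σ) : (ZMod m)ˣ) : ZMod m) = p)
    (fr : ℕ → (E ≃ₐ[ℚ] E))
    (hfr : ∀ p, p.Prime → p ∉ S₁ → ∃ (A : ValuationSubring Qbar) (σ : GQ),
      A.LiesOverPrime p ∧ A.IsFrobeniusAt σ p ∧ AlgEquiv.restrictNormalHom E σ = fr p)
    (x : E ≃ₐ[ℚ] E) (hinj : ∀ t ∈ Subgroup.zpowers x, ε t = 1 → t = 1) :
    Bdd fun s => primeSumC (fun p => if p ∈ S₁ then 0 else
      (Nat.card {t : E ≃ₐ[ℚ] E // t * fr p * t⁻¹ = x} : ℂ)) s -
        (Real.log (1 / (s - 1)) : ℂ) := by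
  have : NumberField E := {}
  let K := IntermediateField.fixedField (Subgroup.zpowers x)
  have : NumberField K := {}
  set u := ε x with hu
  set F := (Finset.univ : Finset (DirichletCharacter ℂ m)).filter fun χ => χ (u : ZMod m) = 1
  set G := (Finset.univ : Finset (DirichletCharacter ℂ m)).filter fun χ => ¬χ (u : ZMod m) = 1
  have hF : F.card * Nat.card (Subgroup.zpowers x) = m.totient :=
    orderOf_map_eq hinj ▸ card_charFilter_mul_orderOf u
  have hFc : (F.card : ℂ) * Nat.card (Subgroup.zpowers x) = m.totient := by exact_mod_cast hF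
  -- characters trivial at `ε x` give the logarithm, the others are bounded
  have hFA : ∀ χ ∈ F, Bdd fun s => charSum K χ s - (Real.log (1 / (s - 1)) : ℂ) := fun χ hχ =>
    bdd_charSum_of_eq_one hU hε hfr (Finset.mem_filter.mp hχ).2
  have hGA : ∀ χ ∈ G, Bdd (charSum K χ) :=
    bdd_charSum_of_bdd_sum K (bdd_sum_charSum_of_ne_one hU hε hfr hinj) fun χ hχ =>
      exists_tendsto_exp_logL hU hε (Finset.mem_filter.mp hχ).2
  have hmain : Bdd fun s => (m.totient : ℂ) * primeSumC (classWeight K u) s -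
      (F.card : ℂ) * (Real.log (1 / (s - 1)) : ℂ) := by
    have h1 : Bdd fun s => (∑ χ ∈ F, (charSum K χ s - (Real.log (1 / (s - 1)) : ℂ))) +
        ∑ χ ∈ G, χ ((u⁻¹ : (ZMod m)ˣ) : ZMod m) * charSum K χ s :=
      IsBigO.add (IsBigO.fun_sum hFA) (IsBigO.fun_sum fun χ hχ => (hGA χ hχ).const_mul_left _)
    refine h1.congr (eventually_nhdsWithin_of_forall fun s (hs : 1 < s) => ?_)
    rw [primeSumC_classWeight_orth K u hs, ← Finset.sum_filter_add_sum_filter_not Finset.univ
      fun χ : DirichletCharacter ℂ m => χ (u : ZMod m) = 1,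
      Finset.sum_sub_distrib, Finset.sum_const, nsmul_eq_mul]
    have h2 : ∀ χ ∈ F, χ ((u⁻¹ : (ZMod m)ˣ) : ZMod m) * charSum K χ s = charSum K χ s :=
      fun χ hχ => by
        have h3 : χ ((u⁻¹ : (ZMod m)ˣ) : ZMod m) * χ (u : ZMod m) = 1 := by
          rw [← map_mul, Units.inv_mul, map_one]
        rw [(Finset.mem_filter.mp hχ).2, mul_one] at h3
        rw [h3, one_mul]
    rw [Finset.sum_congr rfl h2]
    ring
  -- conclusion
  have hF0 : (F.card : ℂ) ≠ 0 := Nat.cast_ne_zero.mpr fun h =>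
    (Nat.totient_pos.mpr (NeZero.pos m)).ne' (by rw [← hF, h, zero_mul])
  refine Bdd.congr ((bdd_conj hU hε hfr hinj).add (hmain.const_mul_left ((F.card : ℂ)⁻¹)))
    (Eventually.of_forall fun s => ?_)
  simp only [K, u]
  rw [← hFc]
  field_simp
  ring

end FermatAgent.DS.Cheb
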