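import Fermat.Agent.DS.Cheb.Sign
import Fermat.Agent.CFT.ClassSum

/-!
# Lattice sums of periodic functions

A lattice sum twisted by a periodic function is the mean of the function times a fixed lattice sum,
up to a term with a limit as `s → 1+`.
-/

set_option autoImplicit false

noncomputable section

open NumberField NumberField.mixedEmbedding Module Filter Topology
open scoped Classical nonZeroDivisors

namespace FermatAgent.DS.Cheb

open FermatAgent.CFT

variable {K : Type*} [Field K] [NumberField K]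

/-- The twisted lattice sum of a function on the integers. -/
def tSum (e : ℂ) (ρ : 𝓞 K → ℂ) (s : ℝ) : ℂ :=
  ∑' x : 𝓞 K, ρ x * sTerm e s (mixedEmbedding K (x : K))

theorem summable_tSum {e : ℂ} (he : ‖e‖ ≤ 1) {ρ : 𝓞 K → ℂ} {R : ℝ} (hρ : ∀ x, ‖ρ x‖ ≤ R) {s : ℝ}
    (hs : 1 < s) : Summable fun x : 𝓞 K => ρ x * sTerm e s (mixedEmbedding K (x : K)) :=
  Summable.of_norm_bounded ((summable_sTerm he hs).norm.mul_left R) fun x => by
    rw [norm_mul]
    exact mul_le_mul_of_nonneg_right (hρ x) (norm_nonneg _)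

/-- A periodic twisted sum is the sum of its values on the cosets times the sum over the lattice,
up to a function with a limit as `s → 1+`. -/
theorem exists_tendsto_decomp {e : ℂ} (he : ‖e‖ ≤ 1) (Λ : Ideal (𝓞 K))
    [Fintype (𝓞 K ⧸ Λ)] (ρ : 𝓞 K → ℂ) (hper : ∀ x, ∀ y ∈ Λ, ρ (x + y) = ρ x) :
    ∃ ℓ : ℂ, Tendsto (fun s : ℝ => tSum e ρ s -
      (∑ q : 𝓞 K ⧸ Λ, ρ q.out) * ∑' x : Λ, sTerm e s (mixedEmbedding K ((x : 𝓞 K) : K)))
      (𝓝[>] 1) (𝓝 ℓ) := by
  choose ℓ hℓ using fun q : 𝓞 K ⧸ Λ => exists_tendsto_shift he Λ q.out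
  refine ⟨∑ q, ρ q.out * ℓ q,
    (tendsto_finsetSum _ fun q _ => (hℓ q).const_mul (ρ q.out)).congr' ?_⟩
  filter_upwards [self_mem_nhdsWithin] with s (hs : 1 < s)
  let E : (𝓞 K ⧸ Λ) × Λ ≃ 𝓞 K :=
    { toFun := fun z => z.1.out + z.2
      invFun := fun x => (Ideal.Quotient.mk Λ x, ⟨x - (Ideal.Quotient.mk Λ x).out,
        Ideal.Quotient.eq.mp (Ideal.Quotient.mk_out (Ideal.Quotient.mk Λ x)).symm⟩)
      left_inv := fun z => by
        have h : Ideal.Quotient.mk Λ (z.1.out + z.2) = z.1 := by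
          rw [map_add, Ideal.Quotient.eq_zero_iff_mem.mpr z.2.2, add_zero]
          exact Ideal.Quotient.mk_out z.1
        refine Prod.ext h (Subtype.ext ?_)
        simp only [h]; ring
      right_inv := fun x => by simp }
  obtain ⟨R, hR⟩ : ∃ R, ∀ x, ‖ρ x‖ ≤ R := by
    refine ⟨∑ q : 𝓞 K ⧸ Λ, ‖ρ q.out‖, fun x => ?_⟩
    rw [← E.apply_symm_apply x]
    show ‖ρ ((E.symm x).1.out + ((E.symm x).2 : 𝓞 K))‖ ≤ _
    rw [hper _ _ (E.symm x).2.2]
    exact Finset.single_le_sum (f := fun q : 𝓞 K ⧸ Λ => ‖ρ q.out‖) (fun q _ => norm_nonneg _)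
      (Finset.mem_univ _)
  have hsum := E.summable_iff.mpr (summable_tSum he hR hs)
  have h1 : tSum e ρ s = ∑ q : 𝓞 K ⧸ Λ,
      ρ q.out * ∑' x : Λ, sTerm e s (mixedEmbedding K ((q.out + (x : 𝓞 K) : 𝓞 K) : K)) := by
    rw [tSum, ← E.tsum_eq]
    refine (Summable.tsum_prod hsum).trans ?_
    rw [tsum_fintype]
    refine Finset.sum_congr rfl fun q _ => ?_
    rw [← tsum_mul_left]
    refine tsum_congr fun x => ?_
    show ρ (q.out + (x : 𝓞 K)) * _ = _
    rw [hper _ _ x.2]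
    rfl
  rw [h1, Finset.sum_mul, ← Finset.sum_sub_distrib]
  exact Finset.sum_congr rfl fun q _ => mul_sub _ _ _

/-- Averaging an invariant function over two subgroups. -/
theorem card_smul_sum_eq {Q : Type*} [AddCommGroup Q] [Fintype Q] (P P' S : AddSubgroup Q)
    (hP' : P' ≤ P) (hS : S ≤ P) (hsup : P ≤ P' ⊔ S) (ρ : Q → ℂ)
    (hρ : ∀ x ∈ P, ∀ t ∈ S, ρ (x + t) = ρ x) :
    (Nat.card P' : ℂ) * ∑ x : P, ρ x = (Nat.card P : ℂ) * ∑ x : P', ρ x := by
  -- both sides count pairs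
  set n₀ : ℕ := Nat.card {t : S // (t : Q) ∈ P'}
  have key : ∀ f : Q → ℂ, (∀ x ∈ P, ∀ t ∈ S, f (x + t) = f x) →
      (n₀ : ℂ) * ∑ x : P, f x = (Nat.card S : ℂ) * ∑ x : P', f x := by
    intro f hf
    have h1 : ∀ x : P, (n₀ : ℂ) * f x = ∑ t : S, if (x : Q) - t ∈ P' then f x else 0 := by
      intro x
      rw [Finset.sum_ite, Finset.sum_const, Finset.sum_const_zero, add_zero, nsmul_eq_mul]
      congr 2
      obtain ⟨a, ha, b, hb, hab⟩ := AddSubgroup.mem_sup.mp (hsup x.2)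
      rw [show n₀ = Nat.card {t : S // (x : Q) - t ∈ P'} from ?_, Nat.card_eq_fintype_card,
        Fintype.card_subtype]
      refine Nat.card_congr (Equiv.subtypeEquiv (Equiv.addRight (⟨b, hb⟩ : S)) fun t => ?_)
      simp only [Equiv.coe_addRight, AddSubgroup.coe_add]
      rw [← hab, show a + b - ((t : Q) + b) = a - t by abel]
      exact ⟨fun h => P'.sub_mem ha h, fun h => by simpa using P'.sub_mem ha h⟩
    rw [Finset.mul_sum, Finset.sum_congr rfl fun x _ => h1 x, Finset.sum_comm]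
    rw [Nat.card_eq_fintype_card, ← Finset.card_univ, ← nsmul_eq_mul, ← Finset.sum_const]
    refine Finset.sum_congr rfl fun t _ => ?_
    rw [← Finset.sum_filter]
    refine Finset.sum_bij (fun x hx => ⟨(x : Q) - t, (Finset.mem_filter.mp hx).2⟩)
      (fun _ _ => Finset.mem_univ _) (fun a _ b _ h => ?_) (fun y _ => ?_) (fun x hx => ?_)
    · exact Subtype.ext (sub_left_inj.mp (congrArg Subtype.val h))
    · refine ⟨⟨(y : Q) + t, P.add_mem (hP' y.2) (hS t.2)⟩, Finset.mem_filter.mpr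
        ⟨Finset.mem_univ _, by simp⟩, Subtype.ext (by simp)⟩
    · rw [← hf _ (hP' (Finset.mem_filter.mp hx).2) t t.2, sub_add_cancel]
  have hn₀ : (n₀ : ℂ) ≠ 0 := by
    have : Nonempty {t : S // (t : Q) ∈ P'} := ⟨⟨0, by simp⟩⟩
    exact Nat.cast_ne_zero.mpr Nat.card_pos.ne'
  have h1 := key (fun _ => 1) fun _ _ _ _ => rfl
  simp only [Finset.sum_const, Finset.card_univ, nsmul_one, ← Nat.card_eq_fintype_card] at h1
  refine mul_left_cancel₀ hn₀ ?_
  rw [mul_left_comm, key ρ hρ, ← mul_assoc, ← mul_assoc, h1, mul_comm (Nat.card S : ℂ)]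

variable {Λ : Ideal (𝓞 K)}

theorem card_map_mul_absNorm {I : Ideal (𝓞 K)} (h : Λ ≤ I) :
    Nat.card (I.map (Ideal.Quotient.mk Λ)) * Ideal.absNorm I = Ideal.absNorm Λ := by
  rw [Ideal.absNorm_apply, Ideal.absNorm_apply, Submodule.cardQuot_apply, Submodule.cardQuot_apply,
    mul_comm,
    (I.map (Ideal.Quotient.mk Λ)).toAddSubgroup.card_eq_card_quotient_mul_card_addSubgroup]
  congr 1
  exact (Nat.card_congr (DoubleQuot.quotQuotEquivQuotOfLE h).toEquiv).symm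

/-- **Sums over an ideal and over a submultiple of norm prime to the period.** -/
theorem sum_periodic_eq {m : ℕ} (J B : Ideal (𝓞 K)) (hcop : (Ideal.absNorm B).Coprime m)
    [Fintype (𝓞 K ⧸ Ideal.span {(m : 𝓞 K)} * (J * B))] (ρ : 𝓞 K → ℂ)
    (hzero : ∀ x, x ∉ J → ρ x = 0)
    (hper : ∀ x, ∀ y ∈ Ideal.span {(m : 𝓞 K)} * J, ρ (x + y) = ρ x)
    (hJ : J ≠ ⊥) :
    ∑ q : 𝓞 K ⧸ Ideal.span {(m : 𝓞 K)} * (J * B), ρ q.out = (Ideal.absNorm B : ℂ) *
      ∑ q : 𝓞 K ⧸ Ideal.span {(m : 𝓞 K)} * (J * B), (if q.out ∈ J * B then ρ q.out else 0) := by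
  set Λ := Ideal.span {(m : 𝓞 K)} * (J * B) with hΛ
  have hΛS : Λ ≤ Ideal.span {(m : 𝓞 K)} * J := Ideal.mul_mono_right Ideal.mul_le_left
  have hΛJ : Λ ≤ J := hΛS.trans Ideal.mul_le_right
  have hΛP : Λ ≤ J * B := Ideal.mul_le_right
  set π := Ideal.Quotient.mk Λ
  have hout : ∀ x, ρ ((π x).out) = ρ x := fun x => by
    have h : (π x).out - x ∈ Λ := Ideal.Quotient.eq.mp (Ideal.Quotient.mk_out (π x))
    rw [← add_sub_cancel x ((π x).out), hper _ _ (hΛS h)]
  have houtmem : ∀ (q : 𝓞 K ⧸ Λ) (I : Ideal (𝓞 K)), Λ ≤ I →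
      (q.out ∈ I ↔ q ∈ (I.map π).toAddSubgroup) := fun q I hI => by
    conv_rhs => rw [← Ideal.Quotient.mk_out q]
    exact (Ideal.mem_quotient_iff_mem hI).symm
  have h := card_smul_sum_eq (J.map π).toAddSubgroup ((J * B).map π).toAddSubgroup
    ((Ideal.span {(m : 𝓞 K)} * J).map π).toAddSubgroup
    (Submodule.toAddSubgroup_mono (Ideal.map_mono Ideal.mul_le_left))
    (Submodule.toAddSubgroup_mono (Ideal.map_mono Ideal.mul_le_right))
    (fun q hq => by
      obtain ⟨x, rfl⟩ := Ideal.Quotient.mk_surjective q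
      have hx : x ∈ J := (Ideal.mem_quotient_iff_mem hΛJ).mp hq
      obtain ⟨u, v, huv⟩ := Nat.isCoprime_iff_coprime.mpr hcop
      have h1 : ((Ideal.absNorm B : ℕ) : 𝓞 K) * (u * x) ∈ J * B := by
        rw [mul_comm J]
        exact Ideal.mul_mem_mul (Ideal.absNorm_mem B) (Ideal.mul_mem_left _ _ hx)
      have h2 : (m : 𝓞 K) * (v * x) ∈ Ideal.span {(m : 𝓞 K)} * J :=
        Ideal.mul_mem_mul (Ideal.mem_span_singleton_self _) (Ideal.mul_mem_left _ _ hx)
      have e : x = ((Ideal.absNorm B : ℕ) : 𝓞 K) * (u * x) + (m : 𝓞 K) * (v * x) := by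
        have := congrArg (fun z : ℤ => (z : 𝓞 K)) huv
        push_cast at this
        linear_combination (-x) * this
      rw [e, map_add]
      exact AddSubgroup.add_mem_sup (Ideal.mem_map_of_mem _ h1) (Ideal.mem_map_of_mem _ h2))
    (fun q => ρ q.out)
    (fun q _ t ht => by
      obtain ⟨x, rfl⟩ := Ideal.Quotient.mk_surjective q
      obtain ⟨y, rfl⟩ := Ideal.Quotient.mk_surjective t
      show ρ (π x + π y).out = ρ (π x).out
      rw [← map_add, hout, hout, hper _ _ ((Ideal.mem_quotient_iff_mem hΛS).mp ht)])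
  have hsum : ∀ I : Ideal (𝓞 K), Λ ≤ I → ∑ x : (I.map π).toAddSubgroup, ρ (x : 𝓞 K ⧸ Λ).out =
      ∑ q : 𝓞 K ⧸ Λ, if q.out ∈ I then ρ q.out else 0 := fun I hI => by
    rw [← Finset.sum_filter]
    refine (Finset.sum_subtype _ (fun q => ?_) fun q : 𝓞 K ⧸ Λ => ρ q.out).symm
    simp [houtmem q I hI]
  rw [hsum J hΛJ, hsum _ hΛP] at h
  have hJ' : ∀ q : 𝓞 K ⧸ Λ, (if q.out ∈ J then ρ q.out else 0) = ρ q.out := fun q => by
    split_ifs with hq
    · rfl
    · exact (hzero _ hq).symm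
  simp only [hJ'] at h
  have e1 := card_map_mul_absNorm (Λ := Λ) hΛJ
  have e2 := card_map_mul_absNorm (Λ := Λ) hΛP
  rw [map_mul, ← e1, mul_comm (Ideal.absNorm J), ← mul_assoc] at e2
  have hNJ : Ideal.absNorm J ≠ 0 := by rwa [Ne, Ideal.absNorm_eq_zero_iff]
  have hcard : (Nat.card (J.map π) : ℂ) = (Nat.card ((J * B).map π) : ℂ) * Ideal.absNorm B := by
    exact_mod_cast (Nat.eq_of_mul_eq_mul_right (Nat.pos_of_ne_zero hNJ) e2).symm
  have hne : (Nat.card ((J * B).map π) : ℂ) ≠ 0 := Nat.cast_ne_zero.mpr Nat.card_pos.ne'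
  change (Nat.card ((J * B).map π) : ℂ) * _ = (Nat.card (J.map π) : ℂ) * _ at h
  rw [hcard, mul_assoc] at h
  convert mul_left_cancel₀ hne h

end FermatAgent.DS.Cheb
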