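import Fermat.Agent.DS.Cheb.Ray
import Fermat.Agent.DS.Cheb.PrimeCount

/-!
# Logarithms of the series as sums over rational primes
-/

set_option autoImplicit false

noncomputable section

open NumberField IsDedekindDomain Module
open Filter Topology
open scoped Classical nonZeroDivisors

namespace FermatAgent.DS.Cheb

open FermatAgent.CFT
open FermatAgent.GaloisBasic (idealCount)

variable (K : Type) [Field K] [NumberField K]

variable {m : ℕ} (χ : DirichletCharacter ℂ m)

/-- The logarithm of the series. -/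
def logL (s : ℝ) : ℂ :=
  ∑' P : HeightOneSpectrum (𝓞 K),
    -Complex.log (1 - normChar χ (primeIdeal P) * (primePow s P : ℂ))

variable {K}

theorem norm_summand_le (s : ℝ) (P : HeightOneSpectrum (𝓞 K)) :
    ‖normChar χ (primeIdeal P) * (primePow s P : ℂ)‖ ≤ primePow s P := by
  rw [norm_mul, Complex.norm_real, Real.norm_eq_abs, abs_of_pos (primePow_pos s P)]
  exact mul_le_of_le_one_left (primePow_pos s P).le (norm_normChar_le χ _)

theorem norm_log_summand_le {s : ℝ} (hs : 1 ≤ s) (P : HeightOneSpectrum (𝓞 K)) :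
    ‖-Complex.log (1 - normChar χ (primeIdeal P) * (primePow s P : ℂ)) -
        normChar χ (primeIdeal P) * (primePow s P : ℂ)‖ ≤ primePow 2 P ∧
      ‖-Complex.log (1 - normChar χ (primeIdeal P) * (primePow s P : ℂ))‖ ≤
        2 * primePow s P := by
  set z := normChar χ (primeIdeal P) * (primePow s P : ℂ)
  have hz : ‖z‖ ≤ primePow s P := norm_summand_le χ s P
  have hhalf := hz.trans (primePow_le_half hs P)
  have h1 := Complex.norm_log_one_add_sub_self_le (z := -z) (by rw [norm_neg]; linarith)
  rw [norm_neg, sub_neg_eq_add, ← sub_eq_add_neg] at h1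
  have h2 : (1 - ‖z‖)⁻¹ / 2 ≤ 1 := by
    rw [div_le_one two_pos, inv_le_iff_one_le_mul₀ (by linarith)]; linarith
  have h3 : ‖Complex.log (1 - z) + z‖ ≤ ‖z‖ ^ 2 :=
    h1.trans (by rw [mul_div_assoc]; exact mul_le_of_le_one_right (sq_nonneg _) h2)
  refine ⟨?_, ?_⟩
  · rw [show -Complex.log (1 - z) - z = -(Complex.log (1 - z) + z) by ring, norm_neg]
    exact h3.trans ((pow_le_pow_left₀ (norm_nonneg _) hz 2).trans (primePow_sq_le hs P))
  · rw [norm_neg]
    have := norm_sub_le (Complex.log (1 - z) + z) z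
    rw [add_sub_cancel_right] at this
    nlinarith [norm_nonneg z, primePow_pos s P]

theorem summable_logL {s : ℝ} (hs : 1 < s) : Summable fun P : HeightOneSpectrum (𝓞 K) =>
    -Complex.log (1 - normChar χ (primeIdeal P) * (primePow s P : ℂ)) :=
  Summable.of_norm_bounded ((summable_primePow hs).mul_left 2) fun P =>
    (norm_log_summand_le χ hs.le P).2

/-- The logarithm exponentiates to the series. -/
theorem exp_logL {s : ℝ} (hs : 1 < s) : Complex.exp (logL K χ s) = normL K χ s := by
  let f : (Ideal (𝓞 K))⁰ →* ℂ :=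
    { toFun := fun I => normChar χ I * (normPow s I : ℂ)
      map_one' := by simp [normChar, normPow]
      map_mul' := fun I I' => by
        rw [normChar_mul]
        have : normPow s (I * I') = normPow s I * normPow s I' :=
          (normPowHom (K := K) s).map_mul I I'
        rw [this]; push_cast; ring }
  have hlt : ∀ P : HeightOneSpectrum (𝓞 K), ‖f (primeIdeal P)‖ < 1 := fun P =>
    ((norm_summand_le χ s P).trans (primePow_le_half hs.le P)).trans_lt (by norm_num)
  have h := tendsto_supportedOn f hlt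
    ((summable_bounded_series (normChar (K := K) χ) (norm_normChar_le χ) hs).norm)
  have h' := (Complex.continuous_exp.tendsto _).comp (summable_logL (K := K) χ hs).hasSum
  refine tendsto_nhds_unique h' (h.congr' (Eventually.of_forall fun F => ?_))
  rw [Function.comp_apply, Complex.exp_sum]
  refine Finset.prod_congr rfl fun P _ => ?_
  rw [Complex.exp_neg, Complex.exp_log]
  · rfl
  · intro h0
    have h1 := hlt P
    change ‖normChar χ (primeIdeal P) * (primePow s P : ℂ)‖ < 1 at h1
    rw [sub_eq_zero] at h0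
    rw [← h0, norm_one] at h1
    exact lt_irrefl _ h1

/-- The logarithm of the series is continuous on `s > 1`. -/
theorem continuousOn_logL : ContinuousOn (logL K χ) (Set.Ioi (1 : ℝ)) := by
  intro s₀ (hs₀ : 1 < s₀)
  set a := (1 + s₀) / 2
  have ha : 1 < a := by simp only [a]; linarith
  have hcont : ContinuousOn (logL K χ) (Set.Ici a) := by
    refine continuousOn_tsum (fun P => ?_) ((summable_primePow ha).mul_left 2) fun P s hs => ?_
    · intro s (hs : a ≤ s)
      refine (ContinuousAt.neg (ContinuousAt.clog ?_ ?_)).continuousWithinAt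
      · refine continuousAt_const.sub (continuousAt_const.mul ?_)
        refine Complex.continuous_ofReal.continuousAt.comp ?_
        show ContinuousAt (fun s : ℝ => (Ideal.absNorm P.asIdeal : ℝ) ^ (-s)) s
        exact (Real.continuousAt_const_rpow (absNorm_pos (primeIdeal P)).ne').comp
          continuous_neg.continuousAt
      · refine Complex.mem_slitPlane_iff.mpr (Or.inl ?_)
        have h1 := (Complex.re_le_norm _).trans ((norm_summand_le χ s P).trans
          (primePow_le_half (ha.le.trans hs) P))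
        rw [Complex.sub_re, Complex.one_re]
        linarith
    · refine (norm_log_summand_le χ (ha.le.trans hs) P).2.trans ?_
      refine mul_le_mul_of_nonneg_left ?_ zero_le_two
      exact Real.rpow_le_rpow_of_exponent_le
        (by exact_mod_cast (one_le_two.trans (two_le_absNorm P))) (neg_le_neg hs)
  exact (hcont.continuousAt (Ici_mem_nhds (by simp only [a]; linarith))).continuousWithinAt

variable (K)

/-- The logarithm is the twisted sum over rational primes up to a bounded amount. -/
theorem exists_logL_sub_le : ∃ T : ℝ, ∀ s : ℝ, 1 < s →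
    ‖logL K χ s - primeSumC (fun p => (idealCount K p : ℂ) * χ (p : ZMod m)) s‖ ≤ T := by
  obtain ⟨T, hT⟩ := exists_fibre_bound K
  refine ⟨(∑' P : HeightOneSpectrum (𝓞 K), primePow 2 P) + T, fun s hs => ?_⟩
  refine (norm_sub_le_norm_sub_add_norm_sub _
    (∑' P : HeightOneSpectrum (𝓞 K), normChar χ (primeIdeal P) * (primePow s P : ℂ)) _).trans
    (add_le_add ?_ (hT (fun n => χ (n : ZMod m)) (fun n => χ.norm_le_one _) s hs))
  have hz : Summable fun P : HeightOneSpectrum (𝓞 K) =>
      normChar χ (primeIdeal P) * (primePow s P : ℂ) :=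
    Summable.of_norm_bounded (summable_primePow hs) (norm_summand_le χ s)
  rw [logL, ← (summable_logL χ hs).tsum_sub hz]
  exact tsum_of_norm_bounded (summable_primePow one_lt_two).hasSum fun P =>
    (norm_log_summand_le χ hs.le P).1

/-- A continuous logarithm of a function with a nonzero limit is bounded. -/
theorem exists_bound_of_exp_tendsto {F : ℝ → ℂ} (hF : ContinuousOn F (Set.Ioi (1 : ℝ))) {ℓ : ℂ}
    (hℓ : ℓ ≠ 0) (h : Tendsto (fun s => Complex.exp (F s)) (𝓝[>] 1) (𝓝 ℓ)) :
    ∃ B : ℝ, ∀ᶠ s in 𝓝[>] (1 : ℝ), ‖F s‖ ≤ B := by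
  have h' : Tendsto (fun s => Complex.exp (F s) / ℓ) (𝓝[>] 1) (𝓝 1) := by
    simpa [hℓ] using h.div_const ℓ
  obtain ⟨u, hu, hsub⟩ :=
    mem_nhdsGT_iff_exists_Ioo_subset.mp (h'.eventually (Metric.ball_mem_nhds 1 one_half_pos))
  set g : ℝ → ℂ := fun s => Complex.log (Complex.exp (F s) / ℓ)
  have hball : ∀ s ∈ Set.Ioo 1 u, ‖Complex.exp (F s) / ℓ - 1‖ < 1 / 2 := fun s hs => by
    simpa [dist_eq_norm] using hsub hs
  have hgc : ContinuousOn g (Set.Ioo 1 u) := by
    refine ContinuousOn.clog (((hF.mono fun s hs => hs.1).cexp).div_const ℓ) fun s hs => ?_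
    refine Complex.mem_slitPlane_iff.mpr (Or.inl ?_)
    have h1 := (Complex.abs_re_le_norm _).trans (hball s hs).le
    rw [Complex.sub_re, Complex.one_re, abs_le] at h1
    linarith
  set D : ℝ → ℂ := fun s => F s - g s - Complex.log ℓ
  have hexp : ∀ s, Complex.exp (D s) = 1 := fun s => by
    simp only [D, g]
    rw [Complex.exp_sub, Complex.exp_sub, Complex.exp_log (div_ne_zero (Complex.exp_ne_zero _) hℓ),
      Complex.exp_log hℓ]
    field_simp [Complex.exp_ne_zero]
  have hDc : ContinuousOn D (Set.Ioo 1 u) :=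
    ((hF.mono fun s hs => hs.1).sub hgc).sub continuousOn_const
  set k : ℝ → ℝ := fun s => (D s).im / (2 * Real.pi)
  have hk : ∀ s, ∃ n : ℤ, k s = n ∧ D s = n * (2 * Real.pi * Complex.I) := fun s => by
    obtain ⟨n, hn⟩ := Complex.exp_eq_one_iff.mp (hexp s)
    refine ⟨n, ?_, hn⟩
    simp only [k, hn]
    simp [Real.pi_ne_zero]
  have hkc : ContinuousOn k (Set.Ioo 1 u) :=
    (Complex.continuous_im.comp_continuousOn hDc).div_const _
  have hconst : ∀ s ∈ Set.Ioo 1 u, ∀ t ∈ Set.Ioo 1 u, k s = k t := by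
    intro s hs t ht
    by_contra hne
    wlog hlt : k s < k t generalizing s t
    · exact this t ht s hs (Ne.symm hne) (lt_of_le_of_ne (not_lt.mp hlt) (Ne.symm hne))
    obtain ⟨n, hn, -⟩ := hk s
    obtain ⟨n', hn', -⟩ := hk t
    have hnn : n < n' := by exact_mod_cast (hn ▸ hn' ▸ hlt : (n : ℝ) < n')
    obtain ⟨r, -, e⟩ := isPreconnected_Ioo.intermediate_value hs ht hkc
      (show (n : ℝ) + 1 / 2 ∈ Set.Icc (k s) (k t) by
        have : (n : ℝ) + 1 ≤ n' := by exact_mod_cast hnn
        rw [hn, hn']; constructor <;> linarith)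
    obtain ⟨n'', hn'', -⟩ := hk r
    rw [hn''] at e
    have : (2 : ℝ) * n'' = 2 * n + 1 := by linarith
    have h2 : 2 * n'' = 2 * n + 1 := by exact_mod_cast this
    omega
  obtain ⟨t, ht⟩ := exists_between (show (1 : ℝ) < u from hu)
  obtain ⟨n, hn, hDn⟩ := hk t
  refine ⟨1 + ‖(n : ℂ) * (2 * Real.pi * Complex.I)‖ + ‖Complex.log ℓ‖, ?_⟩
  filter_upwards [Ioo_mem_nhdsGT (show (1 : ℝ) < u from hu)] with s hs
  obtain ⟨n', hn', hDn'⟩ := hk s
  have hnn : n' = n := by
    have := hconst s hs t ht
    rw [hn', hn] at this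
    exact_mod_cast this
  have hg1 : ‖g s‖ ≤ 1 := by
    have := Complex.norm_log_one_add_half_le_self (z := Complex.exp (F s) / ℓ - 1) (hball s hs).le
    rw [add_sub_cancel] at this
    exact this.trans (by linarith [(hball s hs).le])
  calc ‖F s‖ = ‖g s + D s + Complex.log ℓ‖ := by simp only [D]; ring_nf
    _ ≤ ‖g s‖ + ‖D s‖ + ‖Complex.log ℓ‖ := norm_add₃_le
    _ ≤ _ := by rw [hDn', hnn]; linarith

end FermatAgent.DS.Cheb
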