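import Fermat.Agent.DS.Cheb.Decomp

/-!
# The series `∑ χ(N I) N(I) ^ (-s)` of a number field

It has a limit as `s → 1+` when some ideal norm prime to the conductor has value different from one.
-/

set_option autoImplicit false

noncomputable section

open NumberField NumberField.mixedEmbedding NumberField.InfinitePlace NumberField.Units Module
open Filter Topology
open scoped Classical nonZeroDivisors

namespace FermatAgent.DS.Cheb

open FermatAgent.CFT

variable {K : Type*} [Field K] [NumberField K]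

/-! ### The determinant form of the norm on an ideal -/

variable {m : ℕ} (χ : DirichletCharacter ℂ m)

/-- A basis of an ideal indexed like the integral basis. -/
def idealBasis (J : (Ideal (𝓞 K))⁰) :
    Basis (Free.ChooseBasisIndex ℤ (𝓞 K)) ℤ (J : Ideal (𝓞 K)) :=
  Ideal.selfBasis (RingOfIntegers.basis K) J (nonZeroDivisors.coe_ne_zero J)

/-- Multiplication by an element of the ideal, as a map into the ideal. -/
def mulInto (J : (Ideal (𝓞 K))⁰) : (J : Ideal (𝓞 K)) →ₗ[ℤ] 𝓞 K →ₗ[ℤ] (J : Ideal (𝓞 K)) :=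
  LinearMap.mk₂ ℤ (fun x y => (⟨x.1 * y, Ideal.mul_mem_right _ _ x.2⟩ : (J : Ideal (𝓞 K))))
    (fun _ _ _ => Subtype.ext (add_mul _ _ _)) (fun c _ _ => Subtype.ext (smul_mul_assoc c _ _))
    (fun _ _ _ => Subtype.ext (mul_add _ _ _)) (fun c _ _ => Subtype.ext (mul_smul_comm c _ _))

/-- The matrix of multiplication by an element of the ideal. -/
def mulMatrix (J : (Ideal (𝓞 K))⁰) (x : (J : Ideal (𝓞 K))) :=
  LinearMap.toMatrix (RingOfIntegers.basis K) (idealBasis J) (mulInto J x)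

/-- The index form of the ideal. -/
def idealDet (J : (Ideal (𝓞 K))⁰) : ℤ :=
  ((RingOfIntegers.basis K).toMatrix fun i => ((idealBasis J i : (J : Ideal (𝓞 K))) : 𝓞 K)).det

/-- The norm divided by the index. -/
def normQuot (J : (Ideal (𝓞 K))⁰) (x : (J : Ideal (𝓞 K))) : ℤ := (mulMatrix J x).det

theorem norm_eq_idealDet_mul (J : (Ideal (𝓞 K))⁰) (x : (J : Ideal (𝓞 K))) :
    Algebra.norm ℤ (x : 𝓞 K) = idealDet J * normQuot J x := by
  rw [Algebra.norm_eq_matrix_det (RingOfIntegers.basis K), idealDet, normQuot, mulMatrix,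
    ← Matrix.det_mul]
  congr 1
  have h1 : (RingOfIntegers.basis K).toMatrix
      (fun i => ((idealBasis J i : (J : Ideal (𝓞 K))) : 𝓞 K)) =
      LinearMap.toMatrix (idealBasis J) (RingOfIntegers.basis K)
        ((Submodule.subtype (J : Ideal (𝓞 K))).restrictScalars ℤ) := by
    ext i j
    rw [LinearMap.toMatrix_apply, Basis.toMatrix_apply]
    rfl
  rw [h1, ← LinearMap.toMatrix_comp, Algebra.leftMulMatrix_apply]
  rfl

theorem natAbs_idealDet (J : (Ideal (𝓞 K))⁰) :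
    (idealDet J).natAbs = Ideal.absNorm (J : Ideal (𝓞 K)) := by
  rw [← Ideal.natAbs_det_basis_change (RingOfIntegers.basis K) _ (idealBasis J), Basis.det_apply]
  rfl

theorem normQuot_add_congr (J : (Ideal (𝓞 K))⁰) (x y : (J : Ideal (𝓞 K))) :
    ((normQuot J (x + (m : ℤ) • y) : ℤ) : ZMod m) = (normQuot J x : ZMod m) := by
  rw [normQuot, normQuot, mulMatrix, mulMatrix, map_add, map_zsmul, map_add, map_zsmul]
  show Int.castRingHom (ZMod m) _ = Int.castRingHom (ZMod m) _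
  rw [RingHom.map_det, RingHom.map_det]
  congr 1
  ext i j
  simp only [RingHom.mapMatrix_apply, Matrix.map_apply, Matrix.add_apply, Matrix.smul_apply,
    map_add, smul_eq_mul, map_mul, map_natCast, ZMod.natCast_self, zero_mul, add_zero]

/-- The periodic factor. -/
def rho (J : (Ideal (𝓞 K))⁰) (x : 𝓞 K) : ℂ :=
  if h : x ∈ (J : Ideal (𝓞 K)) then
    (if idealDet J < 0 then χ (-1) else 1) * χ (normQuot J ⟨x, h⟩ : ZMod m) else 0

theorem norm_rho_le (J : (Ideal (𝓞 K))⁰) (x : 𝓞 K) : ‖rho χ J x‖ ≤ 1 := by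
  rw [rho]
  split_ifs with h
  · rw [norm_mul]
    exact mul_le_one₀ (χ.norm_le_one _) (norm_nonneg _) (χ.norm_le_one _)
  · rw [one_mul]; exact χ.norm_le_one _
  · simp

theorem rho_zero_of_notMem (J : (Ideal (𝓞 K))⁰) (x : 𝓞 K) (hx : x ∉ (J : Ideal (𝓞 K))) :
    rho χ J x = 0 := by rw [rho, dif_neg hx]

theorem rho_periodic (J : (Ideal (𝓞 K))⁰) (x y : 𝓞 K)
    (hy : y ∈ Ideal.span {(m : 𝓞 K)} * (J : Ideal (𝓞 K))) : rho χ J (x + y) = rho χ J x := by
  obtain ⟨z, hz, rfl⟩ := Ideal.mem_span_singleton_mul.mp hy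
  have hmz : (m : 𝓞 K) * z ∈ (J : Ideal (𝓞 K)) := Ideal.mul_mem_left _ _ hz
  by_cases hx : x ∈ (J : Ideal (𝓞 K))
  · rw [rho, rho, dif_pos hx, dif_pos (add_mem hx hmz)]
    congr 2
    rw [← normQuot_add_congr J ⟨x, hx⟩ ⟨z, hz⟩]
    refine congrArg (fun w => ((normQuot J w : ℤ) : ZMod m)) (Subtype.ext ?_)
    simp [zsmul_eq_mul]
  · rw [rho, rho, dif_neg hx, dif_neg fun h => hx ?_]
    simpa using sub_mem h hmz

theorem rho_mul_sign_eq (J I : (Ideal (𝓞 K))⁰) {a : 𝓞 K} (ha : a ≠ 0)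
    (h : (J : Ideal (𝓞 K)) * I = Ideal.span {a}) :
    rho χ J a * (if Algebra.norm ℝ (mixedEmbedding K (a : K)) < 0 then χ (-1) else 1) =
      χ ((Ideal.absNorm (I : Ideal (𝓞 K)) : ℕ) : ZMod m) := by
  have haJ : a ∈ (J : Ideal (𝓞 K)) :=
    Ideal.mul_le_left (J := (I : Ideal (𝓞 K))) (by rw [h]; exact Ideal.mem_span_singleton_self a)
  rw [rho, dif_pos haJ, algNorm_mixedEmbedding, ← Algebra.coe_norm_int, Rat.cast_intCast,
    norm_eq_idealDet_mul J ⟨a, haJ⟩]
  set D := normQuot J ⟨a, haJ⟩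
  set δ := idealDet J
  have h1 := congrArg Ideal.absNorm h
  rw [map_mul, Ideal.absNorm_span_singleton, norm_eq_idealDet_mul J ⟨a, haJ⟩, Int.natAbs_mul,
    natAbs_idealDet] at h1
  have hNI : Ideal.absNorm (I : Ideal (𝓞 K)) = D.natAbs :=
    Nat.eq_of_mul_eq_mul_left (Nat.pos_of_ne_zero
      (Ideal.absNorm_eq_zero_iff.not.mpr (nonZeroDivisors.coe_ne_zero J))) h1
  have hD : D ≠ 0 := fun e => Algebra.norm_ne_zero_iff.mpr ha
    (by rw [norm_eq_idealDet_mul J ⟨a, haJ⟩]; simp [D, e])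
  have hδ : δ ≠ 0 := fun e => Algebra.norm_ne_zero_iff.mpr ha
    (by rw [norm_eq_idealDet_mul J ⟨a, haJ⟩]; simp [δ, e])
  have hsq : χ (-1 : ZMod m) * χ (-1) = 1 := by rw [← map_mul, neg_one_mul, neg_neg, map_one]
  rw [hNI]
  simp only [Int.cast_lt_zero]
  rcases lt_or_gt_of_ne hD with hD0 | hD0 <;> rcases lt_or_gt_of_ne hδ with hδ0 | hδ0
  · have hcast : ((D.natAbs : ℕ) : ZMod m) = -1 * (D : ZMod m) := by
      rw [show ((D.natAbs : ℕ) : ZMod m) = (((D.natAbs : ℕ) : ℤ) : ZMod m)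
        from (Int.cast_natCast _).symm,
        Int.ofNat_natAbs_of_nonpos hD0.le]
      push_cast; ring
    rw [if_pos hδ0, if_neg (not_lt.mpr (mul_pos_of_neg_of_neg hδ0 hD0).le), hcast, map_mul, mul_one]
  · have hcast : ((D.natAbs : ℕ) : ZMod m) = -1 * (D : ZMod m) := by
      rw [show ((D.natAbs : ℕ) : ZMod m) = (((D.natAbs : ℕ) : ℤ) : ZMod m)
        from (Int.cast_natCast _).symm,
        Int.ofNat_natAbs_of_nonpos hD0.le]
      push_cast; ring
    rw [if_neg (not_lt.mpr hδ0.le), if_pos (mul_neg_of_pos_of_neg hδ0 hD0), hcast, map_mul]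
    ring
  · rw [if_pos hδ0, if_pos (mul_neg_of_neg_of_pos hδ0 hD0), mul_right_comm, hsq, one_mul,
      show ((D.natAbs : ℕ) : ZMod m) = (((D.natAbs : ℕ) : ℤ) : ZMod m)
        from (Int.cast_natCast _).symm,
      Int.natAbs_of_nonneg hD0.le]
  · rw [if_neg (not_lt.mpr hδ0.le), if_neg (not_lt.mpr (mul_pos hδ0 hD0).le), one_mul, mul_one,
      show ((D.natAbs : ℕ) : ZMod m) = (((D.natAbs : ℕ) : ℤ) : ZMod m)
        from (Int.cast_natCast _).symm,
      Int.natAbs_of_nonneg hD0.le]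

/-! ### The series -/

/-- The value of the character at the norm. -/
def normChar (I : (Ideal (𝓞 K))⁰) : ℂ := χ ((Ideal.absNorm (I : Ideal (𝓞 K)) : ℕ) : ZMod m)

/-- The character at the norm has absolute value at most one. -/
theorem norm_normChar_le (I : (Ideal (𝓞 K))⁰) : ‖normChar χ I‖ ≤ 1 := χ.norm_le_one _

/-- The character at the norm is multiplicative in the ideal. -/
theorem normChar_mul (I I' : (Ideal (𝓞 K))⁰) :
    normChar χ (I * I') = normChar χ I * normChar χ I' := by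
  simp [normChar, map_mul]

/-- The series. -/
def normL (K : Type*) [Field K] [NumberField K] (χ : DirichletCharacter ℂ m) (s : ℝ) : ℂ :=
  ∑' I : (Ideal (𝓞 K))⁰, normChar χ I * (normPow s I : ℂ)

/-- The series `∑ f(I) N(I) ^ (-s)` over the nonzero ideals with `|f| ≤ 1` converges for `s > 1`. -/
theorem summable_bounded_series (f : (Ideal (𝓞 K))⁰ → ℂ) (hf : ∀ I, ‖f I‖ ≤ 1) {s : ℝ}
    (hs : 1 < s) : Summable fun I : (Ideal (𝓞 K))⁰ => f I * (normPow s I : ℂ) :=
  Summable.of_norm_bounded (summable_normPow hs) fun I => by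
    rw [norm_mul, Complex.norm_real, Real.norm_eq_abs, abs_of_pos (normPow_pos s I)]
    exact mul_le_of_le_one_left (normPow_pos s I).le (hf I)

theorem tsum_eq_sum_classes (f : (Ideal (𝓞 K))⁰ → ℂ) (hf : ∀ I, ‖f I‖ ≤ 1) {s : ℝ} (hs : 1 < s) :
    ∑' I, f I * (normPow s I : ℂ) = ∑ C : ClassGroup (𝓞 K),
      ∑' I : {I : (Ideal (𝓞 K))⁰ // ClassGroup.mk0 I = C}, f I.1 * (normPow s I.1 : ℂ) := by
  let e := Equiv.sigmaFiberEquiv (fun I : (Ideal (𝓞 K))⁰ => ClassGroup.mk0 I)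
  rw [← e.tsum_eq]
  refine (Summable.tsum_sigma (e.summable_iff.mpr (summable_bounded_series f hf hs))).trans ?_
  rw [tsum_fintype]
  rfl

/-- On one class, the series over the multiples of `B` against the whole series. -/
private theorem exists_tendsto_compare [NeZero m] {e : ℂ} (he : ‖e‖ ≤ 1) (J B : (Ideal (𝓞 K))⁰)
    (hbm : (Ideal.absNorm (B : Ideal (𝓞 K))).Coprime m)
    (hbpos : 0 < Ideal.absNorm (B : Ideal (𝓞 K))) :
    ∃ ℓ : ℂ, Tendsto (fun s =>
      tSum e (fun x => if x ∈ (J : Ideal (𝓞 K)) * (B : Ideal (𝓞 K)) then rho χ J x else 0) s -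
        tSum e (rho χ J) s / (Ideal.absNorm (B : Ideal (𝓞 K)) : ℂ)) (𝓝[>] 1) (𝓝 ℓ) := by
  set b : ℕ := Ideal.absNorm (B : Ideal (𝓞 K)) with hb
  let ρB : 𝓞 K → ℂ := fun x =>
    if x ∈ (J : Ideal (𝓞 K)) * (B : Ideal (𝓞 K)) then rho χ J x else 0
  set Λ := Ideal.span {(m : 𝓞 K)} * ((J : Ideal (𝓞 K)) * (B : Ideal (𝓞 K))) with hΛ
  have hΛ0 : Λ ≠ ⊥ := by
    simp only [hΛ, Ne, Ideal.mul_eq_bot, Ideal.span_singleton_eq_bot, not_or]
    exact ⟨Nat.cast_ne_zero.mpr (NeZero.ne m), nonZeroDivisors.coe_ne_zero _,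
      nonZeroDivisors.coe_ne_zero _⟩
  have : Finite (𝓞 K ⧸ Λ) := Ideal.finiteQuotientOfFreeOfNeBot Λ hΛ0
  have := Fintype.ofFinite (𝓞 K ⧸ Λ)
  have hΛJB : Λ ≤ (J : Ideal (𝓞 K)) * (B : Ideal (𝓞 K)) := Ideal.mul_le_right
  have hΛmJ : Λ ≤ Ideal.span {(m : 𝓞 K)} * (J : Ideal (𝓞 K)) :=
    Ideal.mul_mono_right Ideal.mul_le_left
  have hper : ∀ x, ∀ y ∈ Λ, rho χ J (x + y) = rho χ J x := fun x y hy =>
    rho_periodic χ J x y (hΛmJ hy)
  have hperB : ∀ x, ∀ y ∈ Λ, ρB (x + y) = ρB x := fun x y hy => by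
    show (if x + y ∈ _ then rho χ J (x + y) else 0) = _
    rw [hper x y hy, if_congr (Ideal.add_mem_iff_left _ (hΛJB hy)) rfl rfl]
  obtain ⟨ℓ₁, h₁⟩ := exists_tendsto_decomp he Λ (rho χ J) hper
  obtain ⟨ℓ₂, h₂⟩ := exists_tendsto_decomp he Λ (ρB) hperB
  have hsum := sum_periodic_eq (J : Ideal (𝓞 K)) (B : Ideal (𝓞 K)) hbm (rho χ J)
    (rho_zero_of_notMem χ J) (rho_periodic χ J) (nonZeroDivisors.coe_ne_zero _)
  refine ⟨ℓ₂ - ℓ₁ / b, (h₂.sub (h₁.div_const (b : ℂ))).congr' ?_⟩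
  refine Eventually.of_forall fun s => ?_
  rw [hsum]
  simp only [ρB, ← hb]
  rw [sub_div, mul_assoc, mul_div_cancel_left₀ _ (Nat.cast_ne_zero.mpr hbpos.ne')]
  abel

/-- Multiples of `B` scale the series. -/
private theorem tsum_dvd_mul (B : (Ideal (𝓞 K))⁰) (s : ℝ) :
    ∑' I : (Ideal (𝓞 K))⁰,
      (if (B : Ideal (𝓞 K)) ∣ (I : Ideal (𝓞 K)) then normChar χ I else 0) * (normPow s I : ℂ) =
      normChar χ B * (normPow s B : ℂ) * normL K χ s := by
  let fB : (Ideal (𝓞 K))⁰ → ℂ := fun I =>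
    if (B : Ideal (𝓞 K)) ∣ (I : Ideal (𝓞 K)) then normChar χ I else 0
  have hinj : Function.Injective fun I : (Ideal (𝓞 K))⁰ => B * I := fun I I' h =>
    Subtype.ext (mul_left_cancel₀ (nonZeroDivisors.coe_ne_zero B) (congrArg Subtype.val h))
  rw [normL, ← tsum_mul_left, ← hinj.tsum_eq (f := fun I => fB I * (normPow s I : ℂ))]
  · refine tsum_congr fun I => ?_
    have hd : (B : Ideal (𝓞 K)) ∣ ((B * I : (Ideal (𝓞 K))⁰) : Ideal (𝓞 K)) := by
      rw [Submonoid.coe_mul]; exact dvd_mul_right _ _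
    simp only [fB, if_pos hd, normChar_mul]
    have : normPow s (B * I) = normPow s B * normPow s I := by
      simp only [normPow, Submonoid.coe_mul, map_mul, Nat.cast_mul]
      exact Real.mul_rpow (absNorm_pos B).le (absNorm_pos I).le
    rw [this]; push_cast; ring
  · intro I hI
    rw [Function.mem_support] at hI
    by_cases hd : (B : Ideal (𝓞 K)) ∣ (I : Ideal (𝓞 K))
    · obtain ⟨I', hI'⟩ := hd
      have hI'0 : I' ≠ 0 := fun h0 => nonZeroDivisors.coe_ne_zero I (by rw [hI', h0, mul_zero])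
      exact ⟨⟨I', mem_nonZeroDivisors_iff_ne_zero.mpr hI'0⟩, Subtype.ext hI'.symm⟩
    · exact absurd (by simp [fB, hd]) hI

/-- **The series has a limit at `1`** if some norm prime to `m` has value different from one. -/
theorem exists_tendsto_normL [NeZero m] (B : (Ideal (𝓞 K))⁰) (hB0 : normChar χ B ≠ 0)
    (hB1 : normChar χ B ≠ 1) :
    ∃ ℓ : ℂ, Tendsto (normL K χ) (𝓝[>] 1) (𝓝 ℓ) := by
  set b : ℕ := Ideal.absNorm (B : Ideal (𝓞 K)) with hb
  have hbpos : 0 < b := Nat.pos_of_ne_zero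
    (Ideal.absNorm_eq_zero_iff.not.mpr (nonZeroDivisors.coe_ne_zero B))
  have hbm : b.Coprime m := by
    rw [← ZMod.isUnit_iff_coprime]
    by_contra h
    exact hB0 (χ.map_nonunit h)
  choose J hJ using fun C : ClassGroup (𝓞 K) => exists_mk0_eq_inv C
  set e := χ (-1 : ZMod m)
  have he : ‖e‖ ≤ 1 := χ.norm_le_one _
  let ρB : ClassGroup (𝓞 K) → 𝓞 K → ℂ := fun C x =>
    if x ∈ (J C : Ideal (𝓞 K)) * (B : Ideal (𝓞 K)) then rho χ (J C) x else 0
  -- the comparison on each class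
  choose ℓ hℓ using fun C => exists_tendsto_compare χ he (J C) B hbm hbpos
  set K₀ : ℝ → ClassGroup (𝓞 K) → ℂ := fun s C =>
    (((Ideal.absNorm (J C : Ideal (𝓞 K)) : ℝ) ^ s / torsionOrder K : ℝ) : ℂ)
  have hK₀ : ∀ C, Tendsto (fun s => K₀ s C) (𝓝[>] 1) (𝓝 (K₀ 1 C)) := fun C => by
    refine (Complex.continuous_ofReal.tendsto _).comp (Tendsto.div_const ?_ _)
    refine Tendsto.mono_left ?_ nhdsWithin_le_nhds
    exact Real.continuousAt_const_rpow (absNorm_pos (J C)).ne'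
  -- the series over the multiples of `B`
  let fB : (Ideal (𝓞 K))⁰ → ℂ := fun I =>
    if (B : Ideal (𝓞 K)) ∣ (I : Ideal (𝓞 K)) then normChar χ I else 0
  have hfB : ∀ I, ‖fB I‖ ≤ 1 := fun I => by
    simp only [fB]; split_ifs
    · exact norm_normChar_le χ I
    · simp
  have hclass : ∀ (f : (Ideal (𝓞 K))⁰ → ℂ) (ρ : ClassGroup (𝓞 K) → 𝓞 K → ℂ),
      (∀ I, ‖f I‖ ≤ 1) → (∀ C x, ‖ρ C x‖ ≤ 1) → (∀ C x, x ∉ (J C : Ideal (𝓞 K)) → ρ C x = 0) →
      (∀ C (I : (Ideal (𝓞 K))⁰) a, a ≠ 0 → (J C : Ideal (𝓞 K)) * (I : Ideal (𝓞 K)) =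
        Ideal.span {a} →
        ρ C a * (if Algebra.norm ℝ (mixedEmbedding K (a : K)) < 0 then e else 1) = f I) →
      ∀ s : ℝ, 1 < s → ∑' I, f I * (normPow s I : ℂ) = ∑ C, K₀ s C * tSum e (ρ C) s := by
    intro f ρ hf hρ hρ0 hρI s hs
    rw [tsum_eq_sum_classes f hf hs]
    refine Finset.sum_congr rfl fun C _ => ?_
    rw [(hasSum_class C (J C) (hJ C) f
      (fun x => ρ C x * (if Algebra.norm ℝ (mixedEmbedding K (x : K)) < 0 then e else 1))
      (fun x => by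
        rw [norm_mul]
        refine mul_le_one₀ (hρ C x) (norm_nonneg _) ?_
        split_ifs
        · exact he
        · exact norm_one.le)
      (fun x hx => by rw [hρ0 C x hx, zero_mul]) (hρI C) hs).tsum_eq]
    refine congrArg (fun z => K₀ s C * z) (tsum_congr fun x => ?_)
    rw [sTerm, mul_assoc]
  have hrhoI : ∀ C (I : (Ideal (𝓞 K))⁰) a, a ≠ 0 → (J C : Ideal (𝓞 K)) * (I : Ideal (𝓞 K)) =
      Ideal.span {a} →
      rho χ (J C) a * (if Algebra.norm ℝ (mixedEmbedding K (a : K)) < 0 then e else 1) =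
        normChar χ I := fun C I a ha h => rho_mul_sign_eq χ (J C) I ha h
  have hL := hclass (normChar χ) (fun C => rho χ (J C)) (norm_normChar_le χ)
    (fun C => norm_rho_le χ (J C)) (fun C => rho_zero_of_notMem χ (J C)) hrhoI
  have hLB := hclass fB ρB hfB
    (fun C x => by
      simp only [ρB]; split_ifs
      · exact norm_rho_le χ (J C) x
      · simp)
    (fun C x hx => by
      simp only [ρB]; rw [if_neg fun h => hx (Ideal.mul_le_left h)])
    (fun C I a ha h => by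
      have hiff : a ∈ (J C : Ideal (𝓞 K)) * (B : Ideal (𝓞 K)) ↔
          (B : Ideal (𝓞 K)) ∣ (I : Ideal (𝓞 K)) := by
        rw [← Ideal.dvd_span_singleton, ← h]
        exact mul_dvd_mul_iff_left (nonZeroDivisors.coe_ne_zero (J C))
      simp only [ρB, fB]
      by_cases hd : (B : Ideal (𝓞 K)) ∣ (I : Ideal (𝓞 K))
      · rw [if_pos (hiff.mpr hd), if_pos hd, hrhoI C I a ha h]
      · rw [if_neg (fun hh => hd (hiff.mp hh)), if_neg hd, zero_mul])
  -- multiples of `B` scale the series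
  have hscale : ∀ s : ℝ, 1 < s →
      ∑' I, fB I * (normPow s I : ℂ) = normChar χ B * (normPow s B : ℂ) * normL K χ s :=
    fun s _ => tsum_dvd_mul χ B s
  -- conclusion
  have hdiff : Tendsto (fun s => (normChar χ B * (normPow s B : ℂ) - 1 / b) * normL K χ s)
      (𝓝[>] 1) (𝓝 (∑ C, K₀ 1 C * ℓ C)) := by
    refine (tendsto_finsetSum _ fun C _ => (hK₀ C).mul (hℓ C)).congr' ?_
    filter_upwards [self_mem_nhdsWithin] with s (hs : 1 < s)
    rw [sub_mul, ← hscale s hs, hLB s hs, show normL K χ s = _ from hL s hs, Finset.mul_sum,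
      ← Finset.sum_sub_distrib]
    exact Finset.sum_congr rfl fun C _ => by ring
  set c₁ := normChar χ B * (normPow 1 B : ℂ) - 1 / b
  have hc : Tendsto (fun s => normChar χ B * (normPow s B : ℂ) - 1 / b) (𝓝[>] 1) (𝓝 c₁) := by
    refine (((Complex.continuous_ofReal.tendsto _).comp ?_).const_mul _).sub_const _
    refine Tendsto.mono_left ?_ nhdsWithin_le_nhds
    exact (Real.continuousAt_const_rpow (absNorm_pos B).ne').comp continuous_neg.continuousAt
  have hc₁ : c₁ ≠ 0 := by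
    have e1 : (normPow 1 B : ℂ) = 1 / (b : ℂ) := by
      rw [normPow, Real.rpow_neg_one]; simp [hb]
    intro h
    simp only [c₁, e1] at h
    rw [sub_eq_zero] at h
    exact hB1 (mul_right_cancel₀ (one_div_ne_zero (Nat.cast_ne_zero.mpr hbpos.ne'))
      (h.trans (one_mul _).symm))
  refine ⟨(∑ C, K₀ 1 C * ℓ C) / c₁, (hdiff.div hc hc₁).congr' ?_⟩
  filter_upwards [hc.eventually_ne hc₁] with s hs
  simp only [Pi.div_apply]
  rw [mul_div_cancel_left₀ _ hs]

end FermatAgent.DS.Cheb
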