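import Fermat.Agent.CFT.LatticeSum

/-!
# Lattice sums twisted by the sign of the norm

Shifting an ideal lattice changes the weighted sum of `|N x| ^ (-s)`, twisted by a function of the
sign of the norm, by an amount with a limit as `s → 1+`.
-/

set_option autoImplicit false

noncomputable section

open NumberField NumberField.mixedEmbedding NumberField.InfinitePlace Module Filter Topology
open scoped Classical

namespace FermatAgent.DS.Cheb

open FermatAgent.CFT

variable {K : Type*} [Field K] [NumberField K]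

/-- On embedded elements the algebra norm of the mixed space is the field norm. -/
theorem algNorm_mixedEmbedding (x : K) :
    Algebra.norm ℝ (mixedEmbedding K x) = ((Algebra.norm ℚ x : ℚ) : ℝ) := by
  have key : Algebra.leftMulMatrix (latticeBasis K) (mixedEmbedding K x) =
      (Algebra.leftMulMatrix (integralBasis K) x).map (fun q : ℚ => (q : ℝ)) := by
    ext i j
    rw [Matrix.map_apply, Algebra.leftMulMatrix_eq_repr_mul, Algebra.leftMulMatrix_eq_repr_mul,
      latticeBasis_apply, ← map_mul]
    conv_lhs => rw [← (integralBasis K).sum_repr (x * integralBasis K j), map_sum]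
    have hsmul : ∀ (a : ℚ) (y : K),
        mixedEmbedding K (a • y) = (a : ℝ) • mixedEmbedding K y := fun a y => by
      rw [Rat.smul_def, map_mul, Algebra.smul_def]
      congr 1
      ext w <;> simp [mixedEmbedding]
    simp only [hsmul, ← latticeBasis_apply]
    rw [Basis.repr_sum_self]
  rw [Algebra.norm_eq_matrix_det (latticeBasis K), key,
    Algebra.norm_eq_matrix_det (integralBasis K)]
  exact ((Rat.castHom ℝ).map_det _).symm

/-- The algebra norm is continuous. -/
theorem continuous_algNorm : Continuous fun z : mixedSpace K => Algebra.norm ℝ z := by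
  have h : Continuous fun z : mixedSpace K => Algebra.leftMulMatrix (latticeBasis K) z :=
    LinearMap.continuous_of_finiteDimensional (Algebra.leftMulMatrix (latticeBasis K)).toLinearMap
  exact (h.matrix_det).congr fun z => (Algebra.norm_eq_matrix_det (latticeBasis K) z).symm

omit [NumberField K] in
theorem algNorm_ne_zero {z : mixedSpace K} (h : ∀ w, normAtPlace w z ≠ 0) :
    Algebra.norm ℝ z ≠ 0 := by
  have hz : IsUnit z := by
    refine Prod.isUnit_iff.mpr ⟨Pi.isUnit_iff.mpr fun w => isUnit_iff_ne_zero.mpr fun e => ?_,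
      Pi.isUnit_iff.mpr fun w => isUnit_iff_ne_zero.mpr fun e => ?_⟩
    · refine h w.1 ?_
      rw [normAtPlace_apply_of_isReal w.2]
      simpa using e
    · refine h w.1 ?_
      rw [normAtPlace_apply_of_isComplex w.2]
      simpa using e
  exact (hz.map (Algebra.norm ℝ)).ne_zero

/-- The sign of the algebra norm does not change near a point with large absolute values. -/
theorem algNorm_neg_iff_of_close {x y : mixedSpace K}
    (h : ∀ w, ‖y - x‖ < normAtPlace w x) :
    Algebra.norm ℝ y < 0 ↔ Algebra.norm ℝ x < 0 := by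
  set f : ℝ → ℝ := fun t => Algebra.norm ℝ (x + t • (y - x))
  have hf : Continuous f := continuous_algNorm.comp
    (continuous_const.add (continuous_id.smul continuous_const))
  have hne : ∀ t ∈ Set.Icc (0 : ℝ) 1, f t ≠ 0 := fun t ht => algNorm_ne_zero fun w e => by
    have h1 := normAtPlace_add_le w (x + t • (y - x)) (-(t • (y - x)))
    rw [add_neg_cancel_right, normAtPlace_neg, e, zero_add, normAtPlace_smul,
      abs_of_nonneg ht.1] at h1
    nlinarith [h w, normAtPlace_le_norm w (y - x), normAtPlace_nonneg w (y - x), ht.2]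
  have h0 : f 0 = Algebra.norm ℝ x := by simp [f]
  have h1 : f 1 = Algebra.norm ℝ y := by simp [f]
  rw [← h0, ← h1]
  constructor <;> intro hlt <;> by_contra hge
  · obtain ⟨t, ht, e⟩ := intermediate_value_Icc' zero_le_one hf.continuousOn
      (show (0 : ℝ) ∈ Set.Icc (f 1) (f 0) from ⟨hlt.le, not_lt.mp hge⟩)
    exact hne t ht e
  · obtain ⟨t, ht, e⟩ := intermediate_value_Icc zero_le_one hf.continuousOn
      (show (0 : ℝ) ∈ Set.Icc (f 0) (f 1) from ⟨hlt.le, not_lt.mp hge⟩)
    exact hne t ht e

/-- The summand twisted by `e` at negative norms. -/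
def sTerm (e : ℂ) (s : ℝ) (z : mixedSpace K) : ℂ :=
  (if Algebra.norm ℝ z < 0 then e else 1) * (wNormTerm s z : ℂ)

theorem norm_sTerm_le {e : ℂ} (he : ‖e‖ ≤ 1) (s : ℝ) (z : mixedSpace K) :
    ‖sTerm e s z‖ ≤ wNormTerm s z := by
  rw [sTerm, norm_mul, Complex.norm_real, Real.norm_eq_abs, abs_of_nonneg (wNormTerm_nonneg s z)]
  refine mul_le_of_le_one_left (wNormTerm_nonneg s z) ?_
  split_ifs
  · exact he
  · exact norm_one.le

/-- The lattice sum twisted by the sign of the norm converges for `|e| ≤ 1` and `s > 1`. -/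
theorem summable_sTerm {e : ℂ} (he : ‖e‖ ≤ 1) {s : ℝ} (hs : 1 < s) :
    Summable fun x : 𝓞 K => sTerm e s (mixedEmbedding K (x : K)) := by
  refine Summable.of_norm_bounded ((summable_wNormTerm (⊤ : Ideal (𝓞 K)) hs).comp_injective
    (i := fun x : 𝓞 K => (⟨x, trivial⟩ : (⊤ : Ideal (𝓞 K)))) fun a b h => congrArg Subtype.val h)
    fun x => norm_sTerm_le he s _

theorem tendsto_wNormTerm (z : mixedSpace K) :
    Tendsto (fun s => wNormTerm s z) (𝓝[>] (1 : ℝ)) (𝓝 (wNormTerm 1 z)) := by
  unfold wNormTerm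
  refine Tendsto.const_mul _ ?_
  refine Tendsto.mono_left ?_ nhdsWithin_le_nhds
  rcases eq_or_ne (mixedEmbedding.norm z) 0 with h | h
  · rw [h]
    refine tendsto_nhds_of_eventually_eq ?_
    filter_upwards [Ioi_mem_nhds zero_lt_one] with s (hs : 0 < s)
    rw [Real.zero_rpow (neg_ne_zero.mpr hs.ne'), Real.zero_rpow (by norm_num)]
  · exact ((Real.continuousAt_const_rpow h).comp continuous_neg.continuousAt :)

theorem tendsto_sTerm (e : ℂ) (z : mixedSpace K) :
    Tendsto (fun s => sTerm e s z) (𝓝[>] (1 : ℝ)) (𝓝 (sTerm e 1 z)) :=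
  ((Complex.continuous_ofReal.tendsto _).comp (tendsto_wNormTerm z)).const_mul _

/-- **Shift comparison**: the twisted sums over a lattice and over a translate of it differ by a
function with a limit as `s → 1+`. -/
theorem exists_tendsto_shift {e : ℂ} (he : ‖e‖ ≤ 1) (Λ : Ideal (𝓞 K)) (r : 𝓞 K) :
    ∃ ℓ : ℂ, Tendsto (fun s : ℝ =>
      (∑' x : Λ, sTerm e s (mixedEmbedding K ((r + (x : 𝓞 K) : 𝓞 K) : K))) -
        ∑' x : Λ, sTerm e s (mixedEmbedding K ((x : 𝓞 K) : K))) (𝓝[>] 1) (𝓝 ℓ) := by
  set d := finrank ℚ K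
  set r₀ : ℝ := ‖mixedEmbedding K (r : K)‖ + 1
  have hr₀ : 0 < r₀ := by positivity
  obtain ⟨κ, hκ, hκ1, hcomp⟩ := exists_comparable K
  obtain ⟨C, M₀, hC, hM₀, hdiff⟩ := exists_wNormTerm_diff_le K r₀ hr₀
  set M := max M₀ (4 * r₀ / κ)
  have hM : 0 < M := lt_max_of_lt_left hM₀
  set bnd : Λ → ℝ := fun x => (C + 2 * M ^ (d + 1)) * (‖idealEmb Λ x‖ ^ (d + 1))⁻¹ +
    if x = 0 then 2 else 0
  have hbnd : Summable bnd := by
    refine (Summable.mul_left _ ((summable_norm_idealEmb_rpow Λ
      (-((d + 1 : ℕ) : ℝ)) (by push_cast; linarith)).congr fun x => ?_)).add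
      (hasSum_ite_eq 0 2).summable
    rw [Real.rpow_neg (norm_nonneg _), Real.rpow_natCast]
  set f : ℝ → Λ → ℂ := fun s x => sTerm e s (mixedEmbedding K ((r + (x : 𝓞 K) : 𝓞 K) : K)) -
    sTerm e s (idealEmb Λ x)
  refine ⟨∑' x, f 1 x, ?_⟩
  have hlim : Tendsto (fun s => ∑' x, f s x) (𝓝[>] 1) (𝓝 (∑' x, f 1 x)) := by
    refine tendsto_tsum_of_dominated_convergence hbnd
      (fun x => (tendsto_sTerm e _).sub (tendsto_sTerm e _)) ?_
    filter_upwards [self_mem_nhdsWithin, eventually_nhdsWithin_of_eventually_nhds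
      (Iic_mem_nhds one_lt_two)] with s (hs1 : 1 < s) (hs2 : s ≤ 2) x
    have hs : s ∈ Set.Icc (1 : ℝ) 2 := ⟨hs1.le, hs2⟩
    have hone : ∀ y : 𝓞 K, ‖sTerm e s (mixedEmbedding K (y : K))‖ ≤ 1 := fun y =>
      (norm_sTerm_le he s _).trans
        (wNormTerm_idealEmb_le_one (⊤ : Ideal (𝓞 K)) (zero_lt_one.trans hs1) ⟨y, trivial⟩)
    have h2 : ‖f s x‖ ≤ 2 :=
      (norm_sub_le _ _).trans ((add_le_add (hone _) (hone _)).trans_eq one_add_one_eq_two)
    by_cases hx : x = 0
    · exact h2.trans (by simp only [bnd, if_pos hx]; exact le_add_of_nonneg_left (by positivity))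
    have hxn : 0 < ‖idealEmb Λ x‖ := norm_pos_iff.mpr (idealEmb_ne_zero Λ hx)
    simp only [bnd, if_neg hx, add_zero, add_mul]
    by_cases hMx : M ≤ ‖idealEmb Λ x‖
    · refine le_trans ?_ (le_add_of_nonneg_right (by positivity))
      set z := idealEmb Λ x
      set z' := mixedEmbedding K ((r + (x : 𝓞 K) : 𝓞 K) : K)
      have hdist : ‖z' - z‖ ≤ r₀ := by
        simp only [z, z', idealEmb, map_add, add_sub_cancel_right]
        exact le_add_of_nonneg_right zero_le_one
      have hd := hdiff z z' hdist ((le_max_left _ _).trans hMx) s hs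
      have h4 : 4 * r₀ ≤ κ * ‖z‖ := by
        have := (le_max_right _ _).trans hMx
        rw [div_le_iff₀ hκ] at this; linarith
      by_cases h0 : wNormTerm s z = 0 ∧ wNormTerm s z' = 0
      · rw [show f s x = 0 by simp only [f, sTerm]; rw [h0.1, h0.2]; simp]
        rw [norm_zero]; positivity
      have hsgn : Algebra.norm ℝ z' < 0 ↔ Algebra.norm ℝ z < 0 := by
        have hsupp : ∀ {u : mixedSpace K}, wNormTerm s u ≠ 0 →
            ∀ w, κ * ‖u‖ ≤ normAtPlace w u := fun {u} hu => by
          obtain ⟨hW, hN⟩ := mul_ne_zero_iff.mp hu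
          exact hcomp u (fun e => hN (by rw [e, Real.zero_rpow (by linarith)])) hW
        by_cases hz : wNormTerm s z = 0
        · have hz' := hsupp (fun e => h0 ⟨hz, e⟩)
          refine (algNorm_neg_iff_of_close fun w => ?_).symm
          have h5 := norm_le_insert z' z
          rw [norm_sub_rev]
          have := hz' w
          nlinarith
        · refine algNorm_neg_iff_of_close fun w => ?_
          have := hsupp hz w
          linarith
      calc ‖f s x‖ = ‖((if Algebra.norm ℝ z < 0 then e else 1) : ℂ)‖ *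
            |wNormTerm s z' - wNormTerm s z| := by
            show ‖sTerm e s z' - sTerm e s z‖ = _
            rw [sTerm, sTerm, if_congr hsgn rfl rfl, ← mul_sub, norm_mul, ← Complex.ofReal_sub,
              Complex.norm_real, Real.norm_eq_abs]
        _ ≤ 1 * (C * (‖z‖ ^ (d + 1))⁻¹) := by
            refine mul_le_mul ?_ hd (abs_nonneg _) zero_le_one
            split_ifs
            · exact he
            · exact norm_one.le
        _ = C * (‖z‖ ^ (d + 1))⁻¹ := one_mul _
    · refine h2.trans (le_trans ?_ (le_add_of_nonneg_left (by positivity)))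
      rw [mul_assoc]
      refine le_mul_of_one_le_right zero_le_two ?_
      rw [← div_eq_mul_inv, one_le_div (pow_pos hxn _)]
      exact pow_le_pow_left₀ hxn.le (not_le.mp hMx).le _
  refine hlim.congr' ?_
  filter_upwards [self_mem_nhdsWithin] with s (hs : 1 < s)
  refine Summable.tsum_sub ?_ ?_
  · exact (summable_sTerm he hs).comp_injective (i := fun x : Λ => r + (x : 𝓞 K))
      fun a b h => Subtype.ext (add_left_cancel h)
  · exact (summable_sTerm he hs).comp_injective (i := fun x : Λ => (x : 𝓞 K))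
      Subtype.val_injective

end FermatAgent.DS.Cheb
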